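import Mathlib

set_option autoImplicit false

namespace Fermat.Agent.S51

/-- `AlgebraicClosure ℚ` is an algebraic closure of `ℚ` for the default `ℚ`-algebra structure. -/
theorem isAlgClosure_rat : IsAlgClosure ℚ (AlgebraicClosure ℚ) :=
  ⟨inferInstance,
    (inferInstance : @Algebra.IsAlgebraic ℚ (AlgebraicClosure ℚ) _ _ (AlgebraicClosure.instAlgebra ℚ))⟩

/-- `AlgebraicClosure ℚ` is Galois over `ℚ` (for the default `ℚ`-algebra structure). -/
theorem isGalois_rat : IsGalois ℚ (AlgebraicClosure ℚ) :=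
  have := isAlgClosure_rat
  IsAlgClosure.isGalois ℚ (AlgebraicClosure ℚ)

/-- An element of `AlgebraicClosure ℚ` fixed by every `ℚ`-algebra automorphism is rational. -/
theorem mem_range_of_forall_algEquiv_fixed (x : AlgebraicClosure ℚ)
    (hx : ∀ σ : AlgebraicClosure ℚ ≃ₐ[ℚ] AlgebraicClosure ℚ, σ x = x) :
    ∃ q : ℚ, algebraMap ℚ (AlgebraicClosure ℚ) q = x := by
  have := isGalois_rat
  exact (InfiniteGalois.mem_range_algebraMap_iff_fixed (k := ℚ) (K := AlgebraicClosure ℚ) x).2 hx

end Fermat.Agent.S51
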