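/-
S51, Diophantine core (helper93).

From a rational root `x₀` of the 3-division polynomial and the rational data `(r, d)` of a
5-isogeny kernel polynomial `(x - r)^2 - d`, we produce a rational point on
`Y^2 = X (X - 9) (X - 25)` (a model of the modular curve of level 15), and, given the list of
rational points of that curve, we show `5 ∣ c₄` and `5 ∣ Δ`.
-/
import Mathlib.Tactic
import Fermat.Prelude.Def_FLTPrelim_Modularity

set_option autoImplicit false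

namespace Fermat.Agent.S51

/-- Arithmetic endgame: `m c^3 = n Δ` with `5 ∤ m`, and `n = 5 n₁` or `n = 25 n₁`, `5 ∤ n₁`,
forces `5 ∣ c` and `5 ∣ Δ`. -/
theorem five_dvd_of_cube_eq (c Δ m n n₁ : ℤ) (h : m * c ^ 3 = n * Δ)
    (hm : IsCoprime (5 : ℤ) m) (hn : n = 5 * n₁ ∨ n = 25 * n₁) (hn₁ : IsCoprime (5 : ℤ) n₁) :
    (5 : ℤ) ∣ c ∧ (5 : ℤ) ∣ Δ := by
  have h5 : Prime (5 : ℤ) := Int.prime_iff_natAbs_prime.mpr (by norm_num)
  have h1 : (5 : ℤ) ∣ m * c ^ 3 := by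
    rcases hn with rfl | rfl
    · exact ⟨n₁ * Δ, by rw [h]; ring⟩
    · exact ⟨5 * n₁ * Δ, by rw [h]; ring⟩
  have h2 : (5 : ℤ) ∣ c ^ 3 := hm.dvd_of_dvd_mul_left h1
  have h3 : (5 : ℤ) ∣ c := h5.dvd_of_dvd_pow h2
  refine ⟨h3, ?_⟩
  obtain ⟨k, rfl⟩ := h3
  rcases hn with rfl | rfl
  · have e : n₁ * Δ = 5 * (5 * m * k ^ 3) := by
      have : (5 : ℤ) * (n₁ * Δ) = 5 * (5 * (5 * m * k ^ 3)) := by linear_combination (-1 : ℤ) * h
      exact mul_left_cancel₀ (by norm_num) this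
    exact hn₁.dvd_of_dvd_mul_left ⟨_, e⟩
  · have e : n₁ * Δ = 5 * (m * k ^ 3) := by
      have : (25 : ℤ) * (n₁ * Δ) = 25 * (5 * (m * k ^ 3)) := by linear_combination (-1 : ℤ) * h
      exact mul_left_cancel₀ (by norm_num) this
    exact hn₁.dvd_of_dvd_mul_left ⟨_, e⟩

/-- The rational point on `Y^2 = X (X - 9) (X - 25)`. -/
theorem core_point (B₄ d u : ℚ) (hu0 : u ≠ 0) (h3 : ¬ 3 * d + u = 0)
    (K : (d - u) * ((d - u) * B₄ + 5 * d ^ 2 + 7 * d * u) ^ 2
      = u * d * (3 * d + u) ^ 2 * (25 * d - 9 * u)) :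
    (25 * ((d - u) * ((d - u) * B₄ + 5 * d ^ 2 + 7 * d * u)) / (u ^ 2 * (3 * d + u))) ^ 2
      = (25 * d / u) * (25 * d / u - 9) * (25 * d / u - 25) := by
  have h3' : d * 3 + u ≠ 0 := by rw [mul_comm]; exact h3
  field_simp
  linear_combination (d - u) * K

/-- The reduced Diophantine core, in translated coordinates: `B₂, B₄` are the translated
`b₂, b₄`, the 5-kernel polynomial is `X^2 - d`, and `X₀` is the (translated) `x`-coordinate of the
3-torsion point. -/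
theorem core_reduced (B₂ B₄ d X₀ : ℚ) (hd : d ≠ 0)
    (R1 : B₂ ^ 2 * d = (B₄ + 2 * d) ^ 2 + 16 * d ^ 2)
    (R2 : 3 * X₀ ^ 4 + B₂ * X₀ ^ 3 + 3 * B₄ * X₀ ^ 2 + 3 * B₂ * d * X₀ + 5 * d ^ 2 + B₄ * d = 0)
    (c₄ Δ : ℤ) (hc : (c₄ : ℚ) * d = B₄ ^ 2 - 20 * B₄ * d + 20 * d ^ 2)
    (hΔ : (Δ : ℚ) = 32 * d ^ 2 * (B₄ - 20 * d)) (hΔ0 : Δ ≠ 0)
    (hD2 : ∀ X Y : ℚ, Y ^ 2 = X * (X - 9) * (X - 25) → Y = 0 ∨ X = 45 ∨ X = 5) :
    (5 : ℤ) ∣ c₄ ∧ (5 : ℤ) ∣ Δ := by
  have key : B₄ = -5 * d ∨ B₄ = 55 / 4 * d ∨ B₄ = -60 * d ∨ B₄ = 0 ∨ B₄ = 20 * d := by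
    obtain ⟨u, hu⟩ : ∃ u : ℚ, u = X₀ ^ 2 := ⟨_, rfl⟩
    have K : (d - u) * ((d - u) * B₄ + 5 * d ^ 2 + 7 * d * u) ^ 2
        = u * d * (3 * d + u) ^ 2 * (25 * d - 9 * u) := by
      rw [hu]
      linear_combination (-d * (B₂ * (X₀ ^ 3 + 3 * d * X₀)
        - (3 * X₀ ^ 4 + 3 * B₄ * X₀ ^ 2 + B₄ * d + 5 * d ^ 2))) * R2
        + (X₀ ^ 3 + 3 * d * X₀) ^ 2 * R1
    by_cases hX : X₀ = 0
    · left
      have h0 : d * (5 * d + B₄) = 0 := by rw [hX] at R2; linear_combination R2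
      rcases mul_eq_zero.mp h0 with h | h
      · exact absurd h hd
      · linarith
    · have hu0 : u ≠ 0 := by rw [hu]; exact pow_ne_zero 2 hX
      by_cases h3 : 3 * d + u = 0
      · exfalso
        have hu' : u = -3 * d := by linarith
        subst hu'
        have hG : (d - -3 * d) * B₄ + 5 * d ^ 2 + 7 * d * (-3 * d) = 0 := by
          have h1 : (d - -3 * d) * ((d - -3 * d) * B₄ + 5 * d ^ 2 + 7 * d * (-3 * d)) ^ 2 = 0 := by
            rw [K]; ring
          rcases mul_eq_zero.mp h1 with h | h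
          · exfalso; apply hd; linarith
          · exact pow_eq_zero_iff (two_ne_zero) |>.mp h
        have hB₄ : B₄ = 4 * d := by
          have h1 : 4 * d * (B₄ - 4 * d) = 0 := by linear_combination hG
          rcases mul_eq_zero.mp h1 with h | h
          · exfalso; apply hd; linarith
          · linarith
        have hB₂ : B₂ ^ 2 = 52 * d := by
          have h1 : B₂ ^ 2 * d = 52 * d * d := by rw [R1, hB₄]; ring
          exact mul_right_cancel₀ hd h1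
        have hX2 : X₀ ^ 2 = 0 := by nlinarith [sq_nonneg B₂, sq_nonneg X₀]
        exact hX (pow_eq_zero_iff two_ne_zero |>.mp hX2)
      · have hdu : d - u ≠ 0 := by
          intro h
          have hdu' : u = d := by linarith
          subst hdu'
          have h1 : 256 * u ^ 5 = 0 := by linear_combination (-1 : ℚ) * K
          have h2 : u ^ 5 = 0 := by linarith
          exact hd (pow_eq_zero_iff (by norm_num) |>.mp h2)
        have hpt := core_point B₄ d u hu0 h3 K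
        rcases hD2 _ _ hpt with hY | hX45 | hX5
        · -- Y = 0
          right; left
          have hden : u ^ 2 * (3 * d + u) ≠ 0 := mul_ne_zero (pow_ne_zero 2 hu0) h3
          have h1 : 25 * ((d - u) * ((d - u) * B₄ + 5 * d ^ 2 + 7 * d * u)) = 0 := by
            rcases div_eq_zero_iff.mp hY with h | h
            · exact h
            · exact absurd h hden
          have hG : (d - u) * B₄ + 5 * d ^ 2 + 7 * d * u = 0 := by
            have h2 : (d - u) * ((d - u) * B₄ + 5 * d ^ 2 + 7 * d * u) = 0 := by linarith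
            rcases mul_eq_zero.mp h2 with h | h
            · exact absurd h hdu
            · exact h
          have h2 : u * d * (3 * d + u) ^ 2 * (25 * d - 9 * u) = 0 := by rw [← K, hG]; ring
          have h9 : 25 * d - 9 * u = 0 := by
            rcases mul_eq_zero.mp h2 with h | h
            · exfalso
              rcases mul_eq_zero.mp h with h | h
              · rcases mul_eq_zero.mp h with h | h
                · exact hu0 h
                · exact hd h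
              · exact h3 (pow_eq_zero_iff two_ne_zero |>.mp h)
            · exact h
          have hu' : u = 25 * d / 9 := by linarith
          subst hu'
          have h4 : 4 * d * (55 * d - 4 * B₄) = 0 := by linear_combination 9 * hG
          rcases mul_eq_zero.mp h4 with h | h
          · exfalso; apply hd; linarith
          · linarith
        · -- X = 45
          have hu' : u = 5 * d / 9 := by
            have h1 : 25 * d = 45 * u := by
              have := hX45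
              rw [div_eq_iff hu0] at this
              exact this
            linarith
          subst hu'
          have h1 : d ^ 3 * ((B₄ - 20 * d) * (B₄ + 60 * d)) = 0 := by
            linear_combination (729 / 64 : ℚ) * K
          rcases mul_eq_zero.mp h1 with h | h
          · exact absurd (pow_eq_zero_iff (by norm_num) |>.mp h) hd
          · rcases mul_eq_zero.mp h with h | h
            · right; right; right; right; linarith
            · right; right; left; linarith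
        · -- X = 5
          have hu' : u = 5 * d := by
            have h1 : 25 * d = 5 * u := by
              have := hX5
              rw [div_eq_iff hu0] at this
              exact this
            linarith
          subst hu'
          have h1 : d ^ 3 * (B₄ * (B₄ - 20 * d)) = 0 := by
            linear_combination (-1 / 64 : ℚ) * K
          rcases mul_eq_zero.mp h1 with h | h
          · exact absurd (pow_eq_zero_iff (by norm_num) |>.mp h) hd
          · rcases mul_eq_zero.mp h with h | h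
            · right; right; right; left; exact h
            · right; right; right; right; linarith
  have hΔq : (Δ : ℚ) ≠ 0 := by exact_mod_cast hΔ0
  have hcd : ∀ l : ℚ, B₄ = l * d → (c₄ : ℚ) = (l ^ 2 - 20 * l + 20) * d := by
    intro l hl
    have h1 : (c₄ : ℚ) * d = (l ^ 2 - 20 * l + 20) * d * d := by rw [hc, hl]; ring
    exact mul_right_cancel₀ hd h1
  have hΔd : ∀ l : ℚ, B₄ = l * d → (Δ : ℚ) = 32 * (l - 20) * d ^ 3 := by
    intro l hl
    rw [hΔ, hl]; ring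
  rcases key with h | h | h | h | h
  · -- λ = -5 : c₄ = 145 d, Δ = -800 d^3
    have hc' := hcd (-5) h
    have hΔ' := hΔd (-5) h
    have e : (32 : ℤ) * c₄ ^ 3 = (-121945) * Δ := by
      have : ((32 : ℤ) : ℚ) * (c₄ : ℚ) ^ 3 = ((-121945 : ℤ) : ℚ) * (Δ : ℚ) := by
        rw [hc', hΔ']; push_cast; ring
      exact_mod_cast this
    exact five_dvd_of_cube_eq c₄ Δ 32 (-121945) (-24389) e (by norm_num)
      (Or.inl (by norm_num)) (by norm_num)
  · -- λ = 55/4 : c₄ = -(1055/16) d, Δ = -200 d^3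
    have hc' := hcd (55 / 4) h
    have hΔ' := hΔd (55 / 4) h
    have e : (32768 : ℤ) * c₄ ^ 3 = (46969655) * Δ := by
      have : ((32768 : ℤ) : ℚ) * (c₄ : ℚ) ^ 3 = ((46969655 : ℤ) : ℚ) * (Δ : ℚ) := by
        rw [hc', hΔ']; push_cast; ring
      exact_mod_cast this
    exact five_dvd_of_cube_eq c₄ Δ 32768 46969655 9393931 e (by norm_num)
      (Or.inl (by norm_num)) (by norm_num)
  · -- λ = -60 : c₄ = 4820 d, Δ = -2560 d^3
    have hc' := hcd (-60) h
    have hΔ' := hΔd (-60) h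
    have e : (8 : ℤ) * c₄ ^ 3 = (-349938025) * Δ := by
      have : ((8 : ℤ) : ℚ) * (c₄ : ℚ) ^ 3 = ((-349938025 : ℤ) : ℚ) * (Δ : ℚ) := by
        rw [hc', hΔ']; push_cast; ring
      exact_mod_cast this
    exact five_dvd_of_cube_eq c₄ Δ 8 (-349938025) (-13997521) e (by norm_num)
      (Or.inr (by norm_num)) (by norm_num)
  · -- λ = 0 : c₄ = 20 d, Δ = -640 d^3
    have hc' := hcd 0 (by rw [h]; ring)
    have hΔ' := hΔd 0 (by rw [h]; ring)
    have e : (2 : ℤ) * c₄ ^ 3 = (-25) * Δ := by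
      have : ((2 : ℤ) : ℚ) * (c₄ : ℚ) ^ 3 = ((-25 : ℤ) : ℚ) * (Δ : ℚ) := by
        rw [hc', hΔ']; push_cast; ring
      exact_mod_cast this
    exact five_dvd_of_cube_eq c₄ Δ 2 (-25) (-1) e (by norm_num)
      (Or.inr (by norm_num)) (by norm_num)
  · -- λ = 20 : Δ = 0, excluded
    exfalso
    apply hΔq
    rw [hΔd 20 h]; ring

/-- The Diophantine core in terms of the `b`-invariants of an arbitrary (untranslated) Weierstrass
equation over `ℚ`: `x₀` is a rational root of the 3-division polynomial, `(x - r)^2 - d` is the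
kernel polynomial of a rational subgroup of order 5 (`h5a`, `h5b` are the two duplication
relations, written with the `r`-translated `b`-invariants). -/
theorem core_alg (b₂ b₄ b₆ b₈ : ℚ) (hb : 4 * b₈ = b₂ * b₆ - b₄ ^ 2)
    (x₀ r d : ℚ) (hd : d ≠ 0)
    (h3 : 3 * x₀ ^ 4 + b₂ * x₀ ^ 3 + 3 * b₄ * x₀ ^ 2 + 3 * b₆ * x₀ + b₈ = 0)
    (h5a : b₆ + 2 * r * b₄ + r ^ 2 * b₂ + 4 * r ^ 3 = (b₂ + 12 * r) * d)
    (h5b : b₈ + 3 * r * b₆ + 3 * r ^ 2 * b₄ + r ^ 3 * b₂ + 3 * r ^ 4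
        = 5 * d ^ 2 + (b₄ + r * b₂ + 6 * r ^ 2) * d)
    (c₄ Δ : ℤ) (hc₄ : (c₄ : ℚ) = b₂ ^ 2 - 24 * b₄)
    (hΔ : (Δ : ℚ) = -b₂ ^ 2 * b₈ - 8 * b₄ ^ 3 - 27 * b₆ ^ 2 + 9 * b₂ * b₄ * b₆)
    (hΔ0 : Δ ≠ 0)
    (hD2 : ∀ X Y : ℚ, Y ^ 2 = X * (X - 9) * (X - 25) → Y = 0 ∨ X = 45 ∨ X = 5) :
    (5 : ℤ) ∣ c₄ ∧ (5 : ℤ) ∣ Δ := by
  have R1 : (b₂ + 12 * r) ^ 2 * d
      = ((b₄ + r * b₂ + 6 * r ^ 2) + 2 * d) ^ 2 + 16 * d ^ 2 := by
    linear_combination (-1 : ℚ) * hb + 4 * h5b - (b₂ + 12 * r) * h5a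
  have R2 : 3 * (x₀ - r) ^ 4 + (b₂ + 12 * r) * (x₀ - r) ^ 3
      + 3 * (b₄ + r * b₂ + 6 * r ^ 2) * (x₀ - r) ^ 2 + 3 * (b₂ + 12 * r) * d * (x₀ - r)
      + 5 * d ^ 2 + (b₄ + r * b₂ + 6 * r ^ 2) * d = 0 := by
    linear_combination h3 - 3 * (x₀ - r) * h5a - h5b
  have hc : (c₄ : ℚ) * d = (b₄ + r * b₂ + 6 * r ^ 2) ^ 2 - 20 * (b₄ + r * b₂ + 6 * r ^ 2) * d
      + 20 * d ^ 2 := by
    linear_combination d * hc₄ + R1
  have hΔ' : (Δ : ℚ) = 32 * d ^ 2 * ((b₄ + r * b₂ + 6 * r ^ 2) - 20 * d) := by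
    linear_combination hΔ + (36 * r ^ 2 + 6 * r * b₂) * hb
      + (-27 * ((b₆ + 2 * r * b₄ + r ^ 2 * b₂ + 4 * r ^ 3) + (b₂ + 12 * r) * d)
          + 9 * (b₂ + 12 * r) * (b₄ + r * b₂ + 6 * r ^ 2)) * h5a
      + (-(b₂ + 12 * r) ^ 2) * h5b
      + 8 * ((b₄ + r * b₂ + 6 * r ^ 2) - 4 * d) * R1
  exact core_reduced _ _ d (x₀ - r) hd R1 R2 c₄ Δ hc hΔ' hΔ0 hD2

/-- The Diophantine core for an integral Weierstrass model: a semistable model cannot have both a
rational root of the 3-division polynomial and a rational kernel polynomial of order 5, given the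
list of rational points of `Y^2 = X (X - 9) (X - 25)`. -/
theorem core (W : WeierstrassCurve ℤ) (hΔ : W.Δ ≠ 0) (hW : W.IsSemistableModel)
    (x₀ r d : ℚ) (hd : d ≠ 0)
    (h3 : 3 * x₀ ^ 4 + (W.b₂ : ℚ) * x₀ ^ 3 + 3 * (W.b₄ : ℚ) * x₀ ^ 2 + 3 * (W.b₆ : ℚ) * x₀
        + (W.b₈ : ℚ) = 0)
    (h5a : (W.b₆ : ℚ) + 2 * r * (W.b₄ : ℚ) + r ^ 2 * (W.b₂ : ℚ) + 4 * r ^ 3
        = ((W.b₂ : ℚ) + 12 * r) * d)
    (h5b : (W.b₈ : ℚ) + 3 * r * (W.b₆ : ℚ) + 3 * r ^ 2 * (W.b₄ : ℚ) + r ^ 3 * (W.b₂ : ℚ) + 3 * r ^ 4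
        = 5 * d ^ 2 + ((W.b₄ : ℚ) + r * (W.b₂ : ℚ) + 6 * r ^ 2) * d)
    (hD2 : ∀ X Y : ℚ, Y ^ 2 = X * (X - 9) * (X - 25) → Y = 0 ∨ X = 45 ∨ X = 5) : False := by
  have hb : 4 * (W.b₈ : ℚ) = (W.b₂ : ℚ) * (W.b₆ : ℚ) - (W.b₄ : ℚ) ^ 2 := by
    exact_mod_cast W.b_relation
  have hc₄ : ((W.c₄ : ℤ) : ℚ) = (W.b₂ : ℚ) ^ 2 - 24 * (W.b₄ : ℚ) := by
    simp only [WeierstrassCurve.c₄]; push_cast; ring
  have hΔ' : ((W.Δ : ℤ) : ℚ) = -(W.b₂ : ℚ) ^ 2 * (W.b₈ : ℚ) - 8 * (W.b₄ : ℚ) ^ 3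
      - 27 * (W.b₆ : ℚ) ^ 2 + 9 * (W.b₂ : ℚ) * (W.b₄ : ℚ) * (W.b₆ : ℚ) := by
    simp only [WeierstrassCurve.Δ]; push_cast; ring
  obtain ⟨h1, h2⟩ := core_alg _ _ _ _ hb x₀ r d hd h3 h5a h5b W.c₄ W.Δ hc₄ hΔ' hΔ hD2
  exact hW 5 (by norm_num) (by exact_mod_cast h2) (by exact_mod_cast h1)

end Fermat.Agent.S51
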