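/-
S51 helper: existence of a nonzero 5-torsion point on a Weierstrass curve with nonzero
discriminant over an algebraically closed field of characteristic zero.
-/
import Mathlib

set_option autoImplicit false

namespace Fermat.Agent.S51.Exists5

open Polynomial WeierstrassCurve

section Identities

variable {K : Type*} [Field K]

/-- `Ψ₂Sq` as a plain function. -/
def e2 (b2 b4 b6 x : K) : K := 4 * x ^ 3 + b2 * x ^ 2 + 2 * b4 * x + b6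

/-- `Ψ₃` as a plain function. -/
def e3 (b2 b4 b6 b8 x : K) : K := 3 * x ^ 4 + b2 * x ^ 3 + 3 * b4 * x ^ 2 + 3 * b6 * x + b8

/-- `preΨ₄` as a plain function. -/
def e4 (b2 b4 b6 b8 x : K) : K :=
  2 * x ^ 6 + b2 * x ^ 5 + 5 * b4 * x ^ 4 + 10 * b6 * x ^ 3 + 10 * b8 * x ^ 2 +
    (b2 * b8 - b4 * b6) * x + (b4 * b8 - b6 ^ 2)

/-- `Φ₂` as a plain function. -/
def f2 (b4 b6 b8 x : K) : K := x ^ 4 - b4 * x ^ 2 - 2 * b6 * x - b8

lemma f2_eq (b2 b4 b6 b8 x : K) :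
    f2 b4 b6 b8 x = x * e2 b2 b4 b6 x - e3 b2 b4 b6 b8 x := by
  simp only [f2, e2, e3]; ring

/-- Bezout identity: `Ψ₃` and `Ψ₂Sq` have no common root when `Δ ≠ 0`. -/
lemma ident1 (b2 b4 b6 b8 x : K) (hb : 4 * b8 = b2 * b6 - b4 ^ 2) :
    (48 * x ^ 2 + 8 * b2 * x - b2 ^ 2 + 32 * b4) * e3 b2 b4 b6 b8 x +
      (-36 * x ^ 3 - 9 * b2 * x ^ 2 + (b2 ^ 2 - 42 * b4) * x + b2 * b4 - 27 * b6) *
        e2 b2 b4 b6 x =
      -b2 ^ 2 * b8 - 8 * b4 ^ 3 - 27 * b6 ^ 2 + 9 * b2 * b4 * b6 := by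
  simp only [e2, e3]
  linear_combination (12 * x ^ 2 + 2 * x * b2 + 8 * b4) * hb

/-- `Ψ₂Sq(x(2P)) Ψ₂Sq(x)³ = preΨ₄(x)²`, in denominator-free form. -/
lemma ident3 (b2 b4 b6 b8 x : K) (hb : 4 * b8 = b2 * b6 - b4 ^ 2) :
    4 * f2 b4 b6 b8 x ^ 3 + b2 * f2 b4 b6 b8 x ^ 2 * e2 b2 b4 b6 x +
        2 * b4 * f2 b4 b6 b8 x * e2 b2 b4 b6 x ^ 2 + b6 * e2 b2 b4 b6 x ^ 3 =
      e4 b2 b4 b6 b8 x ^ 2 := by
  simp only [e2, e4, f2]
  linear_combination (-13*x^8 - 8*x^7*b2 - x^6*b2^2 - 28*x^6*b4 - 6*x^5*b2*b4 - 38*x^5*b6 - 7*x^4*b2*b6 - 8*x^4*b4^2 - 22*x^4*b8 - 4*x^3*b2*b8 - 16*x^3*b4*b6 - 8*x^2*b4*b8 - 7*x^2*b6^2 - 6*x*b6*b8 - b8^2) * hb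

/-- `Ψ₃(x(2P)) Ψ₂Sq(x)⁴ = Ψ₃(x) (ψ₅(x) - preΨ₄(x)²)`, in denominator-free form. -/
lemma ident4 (b2 b4 b6 b8 x : K) (hb : 4 * b8 = b2 * b6 - b4 ^ 2) :
    3 * f2 b4 b6 b8 x ^ 4 + b2 * f2 b4 b6 b8 x ^ 3 * e2 b2 b4 b6 x +
        3 * b4 * f2 b4 b6 b8 x ^ 2 * e2 b2 b4 b6 x ^ 2 +
        3 * b6 * f2 b4 b6 b8 x * e2 b2 b4 b6 x ^ 3 + b8 * e2 b2 b4 b6 x ^ 4 =
      e3 b2 b4 b6 b8 x * (e4 b2 b4 b6 b8 x * e2 b2 b4 b6 x ^ 2 - e3 b2 b4 b6 b8 x ^ 3 -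
        e4 b2 b4 b6 b8 x ^ 2) := by
  simp only [e2, e3, e4, f2]
  linear_combination (-9*x^12 - 3*x^11*b2 + 27*x^10*b4 + 18*x^9*b2*b4 + 81*x^9*b6 + 2*x^8*b2^2*b4 + 45*x^8*b2*b6 + 48*x^8*b4^2 + 63*x^8*b8 + 5*x^7*b2^2*b6 + 10*x^7*b2*b4^2 + 34*x^7*b2*b8 + 162*x^7*b4*b6 + 4*x^6*b2^2*b8 + 33*x^6*b2*b4*b6 + 12*x^6*b4^3 + 102*x^6*b4*b8 + 108*x^6*b6^2 + 22*x^5*b2*b4*b8 + 21*x^5*b2*b6^2 + 48*x^5*b4^2*b6 + 114*x^5*b6*b8 + 23*x^4*b2*b6*b8 + 28*x^4*b4^2*b8 + 54*x^4*b4*b6^2 + 25*x^4*b8^2 + 5*x^3*b2*b8^2 + 54*x^3*b4*b6*b8 + 18*x^3*b6^3 + 11*x^2*b4*b8^2 + 24*x^2*b6^2*b8 + 9*x*b6*b8^2 + b8^3) * hb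

end Identities

section Points

variable {K : Type*} [Field K] [DecidableEq K] (W : WeierstrassCurve.Affine K)

omit [DecidableEq K] in
lemma e2_eq_sq {x y : K} (h : W.Equation x y) :
    e2 W.b₂ W.b₄ W.b₆ x = (y - W.negY x y) ^ 2 := by
  rw [Affine.equation_iff] at h
  simp only [e2, b₂, b₄, b₆, Affine.negY]
  linear_combination (-4) * h

/-- The duplication formula for the `x`-coordinate, in denominator-free form. -/
lemma dup_X {x y : K} (h : W.Equation x y) (hy : y ≠ W.negY x y) :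
    W.addX x x (W.slope x x y y) * e2 W.b₂ W.b₄ W.b₆ x = f2 W.b₄ W.b₆ W.b₈ x := by
  have hne : y - W.negY x y ≠ 0 := sub_ne_zero.mpr hy
  have hℓ : W.slope x x y y * (y - W.negY x y) =
      3 * x ^ 2 + 2 * W.a₂ * x + W.a₄ - W.a₁ * y := by
    rw [Affine.slope_of_Y_ne rfl hy]; field_simp
  generalize W.slope x x y y = ℓ at hℓ ⊢
  rw [Affine.equation_iff] at h
  simp only [Affine.addX, e2, f2, b₂, b₄, b₆, b₈, Affine.negY] at *
  linear_combination (ℓ * (2 * y + W.a₁ * x + W.a₃) +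
    (3 * x ^ 2 + 2 * W.a₂ * x + W.a₄ - W.a₁ * y) + W.a₁ * (2 * y + W.a₁ * x + W.a₃)) * hℓ +
    ((-8 * x - W.a₁ ^ 2 - 4 * W.a₂) - 4 * (ℓ ^ 2 + W.a₁ * ℓ - W.a₂ - 2 * x)) * h

omit [DecidableEq K] in
lemma eval_preΨ'_five (x : K) :
    (W.preΨ' 5).eval x = e4 W.b₂ W.b₄ W.b₆ W.b₈ x * e2 W.b₂ W.b₄ W.b₆ x ^ 2 -
      e3 W.b₂ W.b₄ W.b₆ W.b₈ x ^ 3 := by
  have h : W.preΨ' 5 = W.preΨ₄ * W.Ψ₂Sq ^ 2 - W.Ψ₃ ^ 3 := by
    have := W.preΨ'_odd 0
    simpa using this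
  rw [h]
  simp only [preΨ₄, Ψ₂Sq, Ψ₃, e2, e3, e4, eval_add, eval_sub, eval_mul, eval_pow, eval_C, eval_X,
    eval_ofNat]

/-- A Weierstrass curve with nonzero discriminant over an algebraically closed field of
characteristic zero has a nonzero point killed by `5`. -/
theorem exists_five_torsion [IsAlgClosed K] [CharZero K] (hΔ : W.Δ ≠ 0) :
    ∃ P : W.Point, P ≠ 0 ∧ (5 : ℕ) • P = 0 := by
  have h5 : ((5 : ℕ) : K) ≠ 0 := Nat.cast_ne_zero.mpr (by norm_num)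
  have hdeg : (W.preΨ' 5).degree ≠ 0 := by
    have h12 : (W.preΨ' 5).natDegree = 12 := by
      rw [W.natDegree_preΨ' h5]; decide
    have : (W.preΨ' 5).natDegree ≠ 0 := by rw [h12]; norm_num
    exact fun h => this (natDegree_eq_zero_iff_degree_le_zero.mpr h.le)
  obtain ⟨x, hx⟩ := IsAlgClosed.exists_root (W.preΨ' 5) hdeg
  rw [IsRoot.def, eval_preΨ'_five] at hx
  have hb : 4 * W.b₈ = W.b₂ * W.b₆ - W.b₄ ^ 2 := W.b_relation
  have hΔ' : -W.b₂ ^ 2 * W.b₈ - 8 * W.b₄ ^ 3 - 27 * W.b₆ ^ 2 + 9 * W.b₂ * W.b₄ * W.b₆ ≠ 0 := hΔ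
  have I1 := ident1 W.b₂ W.b₄ W.b₆ W.b₈ x hb
  have I3 := ident3 W.b₂ W.b₄ W.b₆ W.b₈ x hb
  have I4 := ident4 W.b₂ W.b₄ W.b₆ W.b₈ x hb
  have hf2 := f2_eq W.b₂ W.b₄ W.b₆ W.b₈ x
  have hp2def : e2 W.b₂ W.b₄ W.b₆ x = 4 * x ^ 3 + W.b₂ * x ^ 2 + 2 * W.b₄ * x + W.b₆ := rfl
  -- the square root giving the `y`-coordinate
  obtain ⟨s, hs⟩ := IsAlgClosed.exists_pow_nat_eq (e2 W.b₂ W.b₄ W.b₆ x) (n := 2) (by norm_num)
  have hsq : ∀ {x' y' : K}, W.Equation x' y' →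
      e2 W.b₂ W.b₄ W.b₆ x' = (y' - W.negY x' y') ^ 2 := fun h => e2_eq_sq W h
  have hdup : ∀ {x' y' : K}, W.Equation x' y' → y' ≠ W.negY x' y' →
      W.addX x' x' (W.slope x' x' y' y') * e2 W.b₂ W.b₄ W.b₆ x' = f2 W.b₄ W.b₆ W.b₈ x' :=
    fun h hy => dup_X W h hy
  have hf2' : ∀ x' : K, f2 W.b₄ W.b₆ W.b₈ x' =
      x' * e2 W.b₂ W.b₄ W.b₆ x' - e3 W.b₂ W.b₄ W.b₆ W.b₈ x' := fun x' => f2_eq _ _ _ _ x'
  generalize hp2 : e2 W.b₂ W.b₄ W.b₆ x = p2 at *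
  generalize hp3 : e3 W.b₂ W.b₄ W.b₆ W.b₈ x = p3 at *
  generalize hp4 : e4 W.b₂ W.b₄ W.b₆ W.b₈ x = p4 at *
  generalize hF2 : f2 W.b₄ W.b₆ W.b₈ x = F2 at *
  -- nonvanishing
  have hp2ne : p2 ≠ 0 := by
    intro h0
    have h30 : p3 = 0 := by
      have : p3 ^ 3 = 0 := by rw [h0] at hx; linear_combination -hx
      exact pow_eq_zero_iff (by norm_num) |>.mp this
    apply hΔ'
    rw [← I1, h0, h30]; ring
  have hp3ne : p3 ≠ 0 := by
    intro h0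
    have h40 : p4 = 0 := by
      have : p4 * p2 ^ 2 = 0 := by rw [h0] at hx; linear_combination hx
      rcases mul_eq_zero.mp this with h | h
      · exact h
      · exact absurd (pow_eq_zero_iff (by norm_num) |>.mp h) hp2ne
    have : p2 ^ 4 = 0 := by
      have hf : F2 = x * p2 := by rw [hf2, h0, sub_zero]
      rw [hf, h40] at I3
      linear_combination I3 + p2 ^ 3 * hp2def
    exact hp2ne (pow_eq_zero_iff (by norm_num) |>.mp this)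
  have hp4ne : p4 ≠ 0 := by
    intro h0
    have : p3 ^ 3 = 0 := by rw [h0] at hx; linear_combination -hx
    exact hp3ne (pow_eq_zero_iff (by norm_num) |>.mp this)
  -- the point
  have hsne : s ≠ 0 := by
    intro h0; apply hp2ne; rw [← hs, h0]; ring
  have h2 : (2 : K) ≠ 0 := two_ne_zero
  obtain ⟨y, hy⟩ : ∃ y : K, y = (s - W.a₁ * x - W.a₃) / 2 := ⟨_, rfl⟩
  have hyD : y - W.negY x y = s := by
    simp only [Affine.negY, hy]; field_simp; ring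
  have heq : W.Equation x y := by
    rw [Affine.equation_iff]
    have h4 : (4 : K) ≠ 0 := by norm_num
    have key : (y - W.negY x y) ^ 2 = 4 * x ^ 3 + W.b₂ * x ^ 2 + 2 * W.b₄ * x + W.b₆ := by
      rw [hyD, hs, hp2def]
    simp only [Affine.negY, b₂, b₄, b₆] at key
    apply mul_left_cancel₀ h4
    linear_combination key
  have hyne : y ≠ W.negY x y := by
    intro h; apply hsne; rw [← hyD, sub_eq_zero]; exact h
  have hns : W.Nonsingular x y := by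
    rw [Affine.nonsingular_iff]
    exact ⟨heq, Or.inr hyne⟩
  -- doubling once
  have hns2 : W.Nonsingular (W.addX x x (W.slope x x y y)) (W.addY x x y (W.slope x x y y)) :=
    Affine.nonsingular_add hns hns fun hxy => hyne hxy.right
  have hPP : Affine.Point.some x y hns + Affine.Point.some x y hns =
      Affine.Point.some _ _ hns2 := Affine.Point.add_self_of_Y_ne hyne
  have hd1 : W.addX x x (W.slope x x y y) * p2 = F2 := by
    have := hdup heq hyne; rwa [hp2, hF2] at this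
  generalize W.addX x x (W.slope x x y y) = X2 at *
  generalize W.addY x x y (W.slope x x y y) = Y2 at *
  have hq2 : e2 W.b₂ W.b₄ W.b₆ X2 * p2 ^ 3 = p4 ^ 2 := by
    rw [← I3]; simp only [e2]
    linear_combination (4 * ((X2 * p2) ^ 2 + (X2 * p2) * F2 + F2 ^ 2) +
      W.b₂ * p2 * (X2 * p2 + F2) + 2 * W.b₄ * p2 ^ 2) * hd1
  have hq3 : e3 W.b₂ W.b₄ W.b₆ W.b₈ X2 * p2 ^ 4 = p3 * (p4 * p2 ^ 2 - p3 ^ 3 - p4 ^ 2) := by
    rw [← I4]; simp only [e3]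
    linear_combination (3 * ((X2 * p2) ^ 3 + (X2 * p2) ^ 2 * F2 + (X2 * p2) * F2 ^ 2 + F2 ^ 3) +
      W.b₂ * p2 * ((X2 * p2) ^ 2 + (X2 * p2) * F2 + F2 ^ 2) +
      3 * W.b₄ * p2 ^ 2 * (X2 * p2 + F2) + 3 * W.b₆ * p2 ^ 3) * hd1
  have heq2 : W.Equation X2 Y2 := hns2.left
  have hq2ne : e2 W.b₂ W.b₄ W.b₆ X2 ≠ 0 := by
    intro h0; rw [h0, zero_mul] at hq2
    exact hp4ne (pow_eq_zero_iff (by norm_num) |>.mp hq2.symm)
  have hy2ne : Y2 ≠ W.negY X2 Y2 := by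
    intro h; apply hq2ne; rw [hsq heq2, sub_eq_zero.mpr h]; ring
  have hd2 := hdup heq2 hy2ne
  have hX4 : W.addX X2 X2 (W.slope X2 X2 Y2 Y2) = x := by
    apply mul_right_cancel₀ hq2ne
    rw [hd2, hf2' X2]
    apply mul_right_cancel₀ (pow_ne_zero 4 hp2ne)
    linear_combination (e2 W.b₂ W.b₄ W.b₆ X2 * p2 ^ 3) * hd1 +
      (e2 W.b₂ W.b₄ W.b₆ X2 * p2 ^ 3) * hf2 - p3 * hq2 - p3 * hx - hq3
  have hns4 : W.Nonsingular (W.addX X2 X2 (W.slope X2 X2 Y2 Y2))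
      (W.addY X2 X2 Y2 (W.slope X2 X2 Y2 Y2)) :=
    Affine.nonsingular_add hns2 hns2 fun hxy => hy2ne hxy.right
  have hQQ : Affine.Point.some X2 Y2 hns2 + Affine.Point.some X2 Y2 hns2 =
      Affine.Point.some _ _ hns4 := Affine.Point.add_self_of_Y_ne hy2ne
  generalize W.addX X2 X2 (W.slope X2 X2 Y2 Y2) = X4 at *
  generalize W.addY X2 X2 Y2 (W.slope X2 X2 Y2 Y2) = Y4 at *
  obtain ⟨P, hP⟩ : ∃ P : W.Point, P = Affine.Point.some x y hns := ⟨_, rfl⟩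
  rw [← hP] at hPP
  rcases Affine.Y_eq_of_X_eq hns4.left heq hX4 with hY | hY
  · -- `4P = P`, impossible
    exfalso
    have h4P : Affine.Point.some X4 Y4 hns4 = P := by
      rw [hP]; simp only [Affine.Point.some.injEq]; exact ⟨hX4, hY⟩
    have e : (P + P) + (P + P) = P := by rw [hPP, hQQ, h4P]
    have h3 : (P + P) + P = 0 := by
      apply add_right_cancel (b := P)
      calc (P + P) + P + P = (P + P) + (P + P) := by abel
        _ = P := e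
        _ = 0 + P := (zero_add P).symm
    have hneg : P + P = -P := eq_neg_of_add_eq_zero_left h3
    rw [hPP, hP, Affine.Point.neg_some, Affine.Point.some.injEq] at hneg
    apply hp3ne
    have hX2 : X2 = x := hneg.1
    rw [hX2] at hd1
    linear_combination hf2 + hd1
  · -- `4P = -P`
    refine ⟨P, by rw [hP]; exact Affine.Point.some_ne_zero hns, ?_⟩
    have h4P : Affine.Point.some X4 Y4 hns4 = -P := by
      rw [hP, Affine.Point.neg_some]; simp only [Affine.Point.some.injEq]; exact ⟨hX4, hY⟩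
    have h5 : (5 : ℕ) • P = ((P + P) + (P + P)) + P := by abel
    rw [h5, hPP, hQQ, h4P, neg_add_cancel]

/-- The `5`-torsion submodule (in the form used by the frozen statements, with the natural
number `5` cast to `ℤ`) is nontrivial. -/
theorem nontrivial_torsionBy_five [IsAlgClosed K] [CharZero K] (hΔ : W.Δ ≠ 0) :
    Nontrivial (Submodule.torsionBy ℤ W.Point ((5 : ℕ) : ℤ)) := by
  obtain ⟨P, hP0, hP5⟩ := exists_five_torsion W hΔ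
  refine ⟨⟨⟨P, ?_⟩, 0, ?_⟩⟩
  · rw [Submodule.mem_torsionBy_iff, Nat.cast_smul_eq_nsmul]; exact hP5
  · intro h; exact hP0 (congrArg Subtype.val h)

end Points

section Frozen

open WeierstrassCurve.Affine

/-- The discriminant of the base change to `AlgebraicClosure ℚ` of an integral Weierstrass curve
with nonzero discriminant is nonzero. -/
theorem Δ_baseChange_ne_zero (W : WeierstrassCurve ℤ) (hΔ : W.Δ ≠ 0) :
    ((W.map (Int.castRingHom ℚ))⁄(AlgebraicClosure ℚ)).Δ ≠ 0 := by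
  show ((W.map (Int.castRingHom ℚ)).map (algebraMap ℚ (AlgebraicClosure ℚ))).Δ ≠ 0
  rw [map_Δ, map_Δ]
  simp only [ne_eq, map_eq_zero]
  simpa using hΔ

/-- Nontriviality of `E[5](ℚ̄)` in exactly the shape occurring in `ModRepIsIrreducible 5`
(for any `DecidableEq` instance on `AlgebraicClosure ℚ`). -/
theorem nontrivial_torsionBy_five_frozen [DecidableEq (AlgebraicClosure ℚ)]
    (W : WeierstrassCurve ℤ) (hΔ : W.Δ ≠ 0) :
    Nontrivial (Submodule.torsionBy ℤ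
      ((W.map (Int.castRingHom ℚ))⁄(AlgebraicClosure ℚ)).Point ((5 : ℕ) : ℤ)) :=
  nontrivial_torsionBy_five _ (Δ_baseChange_ne_zero W hΔ)

end Frozen

end Fermat.Agent.S51.Exists5
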