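/-
S51 helper library (helper52): x-only duplication formula on `WeierstrassCurve.Affine.Point`,
translated `b`-invariants, and the criteria for 3- and 5-torsion in terms of them.
-/
import Mathlib.AlgebraicGeometry.EllipticCurve.DivisionPolynomial.Degree
import Mathlib.AlgebraicGeometry.EllipticCurve.Affine.Point

set_option autoImplicit false

namespace Fermat.Agent.S51

open WeierstrassCurve WeierstrassCurve.Affine

section Translated

variable {F : Type*} [CommRing F] (W : WeierstrassCurve F)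

/-- `b₂` of the curve translated by `x` (so that the point with abscissa `x` moves to abscissa 0). -/
def tb2 (x : F) : F := W.b₂ + 12 * x
/-- `b₄` of the translated curve. -/
def tb4 (x : F) : F := W.b₄ + W.b₂ * x + 6 * x ^ 2
/-- `b₆` of the translated curve; this is `Ψ₂Sq(x)`. -/
def tb6 (x : F) : F := 4 * x ^ 3 + W.b₂ * x ^ 2 + 2 * W.b₄ * x + W.b₆
/-- `b₈` of the translated curve; this is `ψ₃(x)`. -/
def tb8 (x : F) : F :=
  3 * x ^ 4 + W.b₂ * x ^ 3 + 3 * W.b₄ * x ^ 2 + 3 * W.b₆ * x + W.b₈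

lemma tb_relation (x : F) : 4 * tb8 W x = tb2 W x * tb6 W x - tb4 W x ^ 2 := by
  simp only [tb2, tb4, tb6, tb8]
  linear_combination W.b_relation

lemma c₄_eq_tb (x : F) : W.c₄ = tb2 W x ^ 2 - 24 * tb4 W x := by
  simp only [tb2, tb4, WeierstrassCurve.c₄]
  ring

lemma Δ_eq_tb (x : F) : W.Δ = -tb2 W x ^ 2 * tb8 W x - 8 * tb4 W x ^ 3 - 27 * tb6 W x ^ 2
    + 9 * tb2 W x * tb4 W x * tb6 W x := by
  simp only [tb2, tb4, tb6, tb8, WeierstrassCurve.Δ]
  linear_combination (6 * x * W.b₂ + 36 * x ^ 2) * W.b_relation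

/-- `ψ₅(x)` written in the translated invariants. -/
def tpsi5 (x : F) : F :=
  (tb4 W x * tb8 W x - tb6 W x ^ 2) * tb6 W x ^ 2 - tb8 W x ^ 3

lemma tb6_add (x z : F) :
    tb6 W (x + z) = 4 * z ^ 3 + tb2 W x * z ^ 2 + 2 * tb4 W x * z + tb6 W x := by
  simp only [tb2, tb4, tb6]
  ring

lemma tb8_add (x z : F) :
    tb8 W (x + z) = 3 * z ^ 4 + tb2 W x * z ^ 3 + 3 * tb4 W x * z ^ 2 + 3 * tb6 W x * z
      + tb8 W x := by
  simp only [tb2, tb4, tb6, tb8]
  ring

open Polynomial in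
lemma eval_Ψ₂Sq (x : F) : W.Ψ₂Sq.eval x = tb6 W x := by
  simp only [WeierstrassCurve.Ψ₂Sq, tb6]
  simp only [eval_add, eval_mul, eval_pow, eval_C, eval_X]

open Polynomial in
lemma eval_Ψ₃ (x : F) : W.Ψ₃.eval x = tb8 W x := by
  simp only [WeierstrassCurve.Ψ₃, tb8]
  simp only [eval_add, eval_mul, eval_pow, eval_C, eval_X, eval_ofNat]

open Polynomial in
lemma eval_preΨ₄ (x : F) : W.preΨ₄.eval x = tb4 W x * tb8 W x - tb6 W x ^ 2 := by
  simp only [WeierstrassCurve.preΨ₄, tb4, tb6, tb8]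
  simp only [eval_add, eval_mul, eval_pow, eval_C, eval_X, eval_ofNat]
  linear_combination (x ^ 2) * W.b_relation

lemma preΨ'_five : W.preΨ' 5 = W.preΨ₄ * W.Ψ₂Sq ^ 2 - W.Ψ₃ ^ 3 := by
  have := W.preΨ'_odd 0
  simpa using this

open Polynomial in
lemma eval_preΨ'_five (x : F) : (W.preΨ' 5).eval x = tpsi5 W x := by
  rw [preΨ'_five, eval_sub, eval_mul, eval_pow, eval_pow, eval_Ψ₂Sq, eval_Ψ₃, eval_preΨ₄, tpsi5]

end Translated

section TranslatedDomain

variable {F : Type*} [CommRing F] [IsDomain F] (W : WeierstrassCurve F)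

lemma not_tb6_tb8_zero (hΔ : W.Δ ≠ 0) (x : F) : ¬ (tb6 W x = 0 ∧ tb8 W x = 0) := by
  rintro ⟨h6, h8⟩
  have hrel := tb_relation W x
  rw [h6, h8] at hrel
  have h4 : tb4 W x = 0 := by
    have : tb4 W x ^ 2 = 0 := by linear_combination hrel
    exact pow_eq_zero_iff two_ne_zero |>.mp this
  apply hΔ
  rw [Δ_eq_tb W x, h4, h6, h8]
  ring

lemma tb8_ne_zero_of_tpsi5 (hΔ : W.Δ ≠ 0) {x : F} (h5 : tpsi5 W x = 0) : tb8 W x ≠ 0 := by
  intro h8
  have h6 : tb6 W x = 0 := by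
    have : tb6 W x ^ 4 = 0 := by
      simp only [tpsi5, h8] at h5
      linear_combination -h5
    exact pow_eq_zero_iff (by norm_num) |>.mp this
  exact not_tb6_tb8_zero W hΔ x ⟨h6, h8⟩

lemma tb6_ne_zero_of_tpsi5 (hΔ : W.Δ ≠ 0) {x : F} (h5 : tpsi5 W x = 0) : tb6 W x ≠ 0 := by
  intro h6
  have h8 : tb8 W x = 0 := by
    have : tb8 W x ^ 3 = 0 := by
      simp only [tpsi5, h6] at h5
      linear_combination -h5
    exact pow_eq_zero_iff (by norm_num) |>.mp this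
  exact not_tb6_tb8_zero W hΔ x ⟨h6, h8⟩

lemma tpre4_ne_zero_of_tpsi5 (hΔ : W.Δ ≠ 0) {x : F} (h5 : tpsi5 W x = 0) :
    tb4 W x * tb8 W x - tb6 W x ^ 2 ≠ 0 := by
  intro h4
  have h8 : tb8 W x = 0 := by
    have : tb8 W x ^ 3 = 0 := by
      simp only [tpsi5, h4] at h5
      linear_combination -h5
    exact pow_eq_zero_iff (by norm_num) |>.mp this
  exact tb8_ne_zero_of_tpsi5 W hΔ h5 h8

end TranslatedDomain

section FieldIds

variable {F : Type*} [Field F]

lemma quad_key1 {B2 B4 B6 B8 z : F} (h6 : B6 ≠ 0) (hrel : 4 * B8 = B2 * B6 - B4 ^ 2)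
    (hz : z * B6 = -B8) :
    (4 * z ^ 3 + B2 * z ^ 2 + 2 * B4 * z + B6) * B6 ^ 3 = (B4 * B8 - B6 ^ 2) ^ 2 := by
  have hz' : z = -B8 / B6 := by field_simp; linear_combination hz
  subst hz'
  field_simp
  linear_combination (-(B8 ^ 2)) * hrel

lemma quad_key2 {B2 B4 B6 B8 z : F} (h6 : B6 ≠ 0)
    (hz : z * B6 = -B8) :
    ((3 * z ^ 4 + B2 * z ^ 3 + 3 * B4 * z ^ 2 + 3 * B6 * z + B8)
      - z * (4 * z ^ 3 + B2 * z ^ 2 + 2 * B4 * z + B6)) * B6 ^ 4
      = B8 * ((B4 * B8 - B6 ^ 2) * B6 ^ 2 - B8 ^ 3) := by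
  have hz' : z = -B8 / B6 := by field_simp; linear_combination hz
  subst hz'
  field_simp
  ring

end FieldIds

section Dup

variable {F : Type*} [Field F] [DecidableEq F] (W : Affine F)

omit [DecidableEq F] in
lemma tb6_eq_sq {x y : F} (h : W.Equation x y) : tb6 W x = (y - W.negY x y) ^ 2 := by
  rw [equation_iff] at h
  simp only [tb6, negY, WeierstrassCurve.b₂, WeierstrassCurve.b₄, WeierstrassCurve.b₆]
  linear_combination (-4 : F) * h

omit [DecidableEq F] in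
lemma tb6_ne_zero_iff {x y : F} (h : W.Equation x y) : tb6 W x ≠ 0 ↔ y ≠ W.negY x y := by
  rw [tb6_eq_sq W h, ne_eq, ne_eq, pow_eq_zero_iff two_ne_zero, sub_eq_zero]

/-- x-only duplication formula: `(x(P) - x(2P)) * Ψ₂Sq(x(P)) = ψ₃(x(P))`. -/
lemma dup_X {x y : F} (h : W.Equation x y) (hy : y ≠ W.negY x y) :
    (x - W.addX x x (W.slope x x y y)) * tb6 W x = tb8 W x := by
  rw [slope_of_Y_ne rfl hy, tb6_eq_sq W h]
  have hd : y - W.negY x y ≠ 0 := sub_ne_zero.mpr hy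
  have h1 : ∀ n d : F, d ≠ 0 → (x - W.addX x x (n / d)) * d ^ 2 =
      (3 * x + W.a₂) * d ^ 2 - n ^ 2 - W.a₁ * n * d := by
    intro n d hd
    simp only [addX]
    field_simp
    ring
  rw [h1 _ _ hd]
  rw [equation_iff] at h
  simp only [tb8, negY, WeierstrassCurve.b₂, WeierstrassCurve.b₄, WeierstrassCurve.b₆,
    WeierstrassCurve.b₈]
  linear_combination (12 * x + W.a₁ ^ 2 + 4 * W.a₂) * h

/-- The abscissa of a point (junk value `0` at the point at infinity). -/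
def xc : W.Point → F
  | .zero => 0
  | .some x _ _ => x

omit [DecidableEq F] in
@[simp] lemma xc_some {x y : F} (h : W.Nonsingular x y) : xc W (Point.some x y h) = x := rfl

omit [DecidableEq F] in
@[simp] lemma xc_neg (P : W.Point) : xc W (-P) = xc W P := by
  rcases P with _ | ⟨x, y, h⟩
  · rfl
  · rfl

omit [DecidableEq F] in
lemma eq_or_eq_neg_of_xc_eq {P Q : W.Point} (hP : P ≠ 0) (hQ : Q ≠ 0) (h : xc W P = xc W Q) :
    P = Q ∨ P = -Q := by
  rcases P with _ | ⟨x₁, y₁, h₁⟩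
  · exact absurd rfl hP
  rcases Q with _ | ⟨x₂, y₂, h₂⟩
  · exact absurd rfl hQ
  exact Point.X_eq_iff.mp h

/-- Doubling a point which is not 2-torsion, with the x-only duplication formula. -/
lemma add_self_some {x y : F} (h : W.Nonsingular x y) (hy : y ≠ W.negY x y) :
    ∃ (x₂ y₂ : F) (h₂ : W.Nonsingular x₂ y₂),
      Point.some x y h + Point.some x y h = Point.some x₂ y₂ h₂ ∧
        (x - x₂) * tb6 W x = tb8 W x :=
  ⟨_, _, _, Point.add_self_of_Y_ne hy, dup_X W h.1 hy⟩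

lemma add_self_eq_zero_iff {x y : F} (h : W.Nonsingular x y) :
    Point.some x y h + Point.some x y h = 0 ↔ tb6 W x = 0 := by
  constructor
  · intro h0
    by_contra hne
    have hy := (tb6_ne_zero_iff W h.1).mp hne
    rw [Point.add_self_of_Y_ne hy] at h0
    exact Point.some_ne_zero _ h0
  · intro h0
    have hy : y = W.negY x y := by
      by_contra hy
      exact (tb6_ne_zero_iff W h.1).mpr hy h0
    exact Point.add_self_of_Y_eq hy

omit [DecidableEq F] in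
/-- Consequences of the duplication relation `(x - x₂) Ψ₂Sq(x) = ψ₃(x)` at the abscissa `x₂`. -/
lemma quad_facts {x x₂ : F} (h6 : tb6 W x ≠ 0) (hx₂ : (x - x₂) * tb6 W x = tb8 W x) :
    tb6 W x₂ * tb6 W x ^ 3 = (tb4 W x * tb8 W x - tb6 W x ^ 2) ^ 2 ∧
    (tb8 W x₂ - (x₂ - x) * tb6 W x₂) * tb6 W x ^ 4 = tb8 W x * tpsi5 W x := by
  have hz : (x₂ - x) * tb6 W x = -tb8 W x := by linear_combination -hx₂
  constructor
  · have := quad_key1 h6 (tb_relation W x) hz
    rwa [← tb6_add W x (x₂ - x), add_sub_cancel] at this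
  · have := quad_key2 (B2 := tb2 W x) (B4 := tb4 W x) h6 hz
    rwa [← tb6_add W x (x₂ - x), ← tb8_add W x (x₂ - x), add_sub_cancel] at this

lemma three_nsmul_eq_zero_iff (hΔ : W.Δ ≠ 0) {x y : F} (h : W.Nonsingular x y) :
    3 • Point.some x y h = 0 ↔ tb8 W x = 0 := by
  set P := Point.some x y h with hP
  have hP0 : P ≠ 0 := Point.some_ne_zero h
  have h3 : 3 • P = 0 ↔ P + P = -P := by
    rw [show 3 • P = (P + P) + P by abel]
    exact add_eq_zero_iff_eq_neg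
  rw [h3]
  constructor
  · intro h2
    have h6 : tb6 W x ≠ 0 := by
      intro h6
      have := (add_self_eq_zero_iff W h).mpr h6
      rw [← hP, h2] at this
      exact hP0 (neg_eq_zero.mp this)
    obtain ⟨x₂, y₂, h₂, h2P, hx₂⟩ := add_self_some W h ((tb6_ne_zero_iff W h.1).mp h6)
    rw [← hP, h2, hP, Point.neg_some] at h2P
    have hx : x = x₂ := by
      injection h2P
    rw [← hx₂, hx]
    ring
  · intro h8
    have h6 : tb6 W x ≠ 0 := fun h6 => not_tb6_tb8_zero W hΔ x ⟨h6, h8⟩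
    obtain ⟨x₂, y₂, h₂, h2P, hx₂⟩ := add_self_some W h ((tb6_ne_zero_iff W h.1).mp h6)
    rw [h8] at hx₂
    have hx : x₂ = x := by
      rcases mul_eq_zero.mp hx₂ with h | h
      · exact (sub_eq_zero.mp h).symm
      · exact absurd h h6
    rw [← hP] at h2P
    rcases Point.X_eq_iff.mp hx with h' | h'
    · exfalso
      rw [← h2P, ← hP] at h'
      exact hP0 (add_eq_left.mp h')
    · rw [h2P, h']

/-- For a point `P = (x, y)` which is not 2-torsion and whose double `Q = 2P = (x₂, _)` is not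
2-torsion either: `4P = (x₄, _)` with `(x - x₄) Ψ₂Sq(x₂) Ψ₂Sq(x)⁴ = ψ₃(x) ψ₅(x)`. -/
lemma quad_some {x y : F} (h : W.Nonsingular x y) (h6 : tb6 W x ≠ 0)
    (hpre : tb4 W x * tb8 W x - tb6 W x ^ 2 ≠ 0) :
    ∃ (x₂ y₂ : F) (h₂ : W.Nonsingular x₂ y₂) (x₄ y₄ : F) (h₄ : W.Nonsingular x₄ y₄),
      Point.some x y h + Point.some x y h = Point.some x₂ y₂ h₂ ∧
      Point.some x₂ y₂ h₂ + Point.some x₂ y₂ h₂ = Point.some x₄ y₄ h₄ ∧
      (x - x₂) * tb6 W x = tb8 W x ∧ tb6 W x₂ ≠ 0 ∧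
      (x - x₄) * tb6 W x₂ * tb6 W x ^ 4 = tb8 W x * tpsi5 W x := by
  obtain ⟨x₂, y₂, h₂, h2P, hx₂⟩ := add_self_some W h ((tb6_ne_zero_iff W h.1).mp h6)
  obtain ⟨hq1, hq2⟩ := quad_facts W h6 hx₂
  have h6' : tb6 W x₂ ≠ 0 := by
    intro h0
    rw [h0, zero_mul] at hq1
    exact hpre (pow_eq_zero_iff two_ne_zero |>.mp hq1.symm)
  obtain ⟨x₄, y₄, h₄, h4P, hx₄⟩ := add_self_some W h₂ ((tb6_ne_zero_iff W h₂.1).mp h6')
  refine ⟨x₂, y₂, h₂, x₄, y₄, h₄, h2P, h4P, hx₂, h6', ?_⟩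
  rw [← hq2]
  linear_combination (tb6 W x ^ 4) * hx₄

lemma five_nsmul_eq_zero_iff (hΔ : W.Δ ≠ 0) {x y : F} (h : W.Nonsingular x y) :
    5 • Point.some x y h = 0 ↔ tpsi5 W x = 0 := by
  set P := Point.some x y h with hP
  have hP0 : P ≠ 0 := Point.some_ne_zero h
  have h5 : 5 • P = 0 ↔ (P + P) + (P + P) = -P := by
    rw [show 5 • P = ((P + P) + (P + P)) + P by abel]
    exact add_eq_zero_iff_eq_neg
  rw [h5]
  constructor
  · intro h4
    -- `2P ≠ 0`
    have h6 : tb6 W x ≠ 0 := by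
      intro h6
      have h2 := (add_self_eq_zero_iff W h).mpr h6
      rw [← hP] at h2
      rw [h2, add_zero] at h4
      exact hP0 (neg_eq_zero.mp h4.symm)
    obtain ⟨x₂, y₂, h₂, h2P, hx₂⟩ := add_self_some W h ((tb6_ne_zero_iff W h.1).mp h6)
    obtain ⟨hq1, hq2⟩ := quad_facts W h6 hx₂
    rw [← hP] at h2P
    -- `4P ≠ 0`
    have h6' : tb6 W x₂ ≠ 0 := by
      intro h6'
      have h2 := (add_self_eq_zero_iff W h₂).mpr h6'
      rw [← h2P, h4] at h2
      exact hP0 (neg_eq_zero.mp h2)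
    obtain ⟨x₄, y₄, h₄, h4P, hx₄⟩ := add_self_some W h₂ ((tb6_ne_zero_iff W h₂.1).mp h6')
    rw [← h2P, h4, hP, Point.neg_some] at h4P
    have hx : x = x₄ := by injection h4P
    -- `3P ≠ 0`
    have h8 : tb8 W x ≠ 0 := by
      intro h8
      have h3 := (three_nsmul_eq_zero_iff W hΔ h).mpr h8
      rw [← hP] at h3
      apply hP0
      have : P = 2 • (3 • P) - (((P + P) + (P + P)) + P) := by abel
      rw [this, h3, h4]
      simp
    have : tb8 W x * tpsi5 W x = 0 := by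
      rw [← hq2]
      have : tb8 W x₂ - (x₂ - x) * tb6 W x₂ = 0 := by
        rw [← hx₄, hx]; ring
      rw [this, zero_mul]
    exact (mul_eq_zero.mp this).resolve_left h8
  · intro h5
    have h6 := tb6_ne_zero_of_tpsi5 W hΔ h5
    have h8 := tb8_ne_zero_of_tpsi5 W hΔ h5
    have hpre := tpre4_ne_zero_of_tpsi5 W hΔ h5
    obtain ⟨x₂, y₂, h₂, x₄, y₄, h₄, h2P, h4P, hx₂, h6', hx₄⟩ := quad_some W h h6 hpre
    rw [h5, mul_zero] at hx₄
    have hx : x₄ = x := by
      rcases mul_eq_zero.mp hx₄ with h' | h'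
      · rcases mul_eq_zero.mp h' with h'' | h''
        · exact (sub_eq_zero.mp h'').symm
        · exact absurd h'' h6'
      · exact absurd (pow_eq_zero_iff (by norm_num) |>.mp h') h6
    rw [← hP] at h2P
    rw [h2P, h4P]
    rcases Point.X_eq_iff.mp hx with h' | h'
    · exfalso
      -- `4P = P` gives `3P = 0`
      have h3 : 3 • P = 0 := by
        have : (P + P) + (P + P) = P := by rw [h2P, h4P, h']
        have e : 3 • P = ((P + P) + (P + P)) - P := by abel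
        rw [e, this, sub_self]
      exact h8 ((three_nsmul_eq_zero_iff W hΔ h).mp h3)
    · exact h'

end Dup

end Fermat.Agent.S51
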