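import Mathlib

set_option autoImplicit false

namespace Fermat.Agent.S51

open Module in
/-- In a finite `ZMod p`-vector space with fewer than `p ^ 3` elements, a submodule which is neither
`⊥` nor `⊤` is a line: all its elements are multiples of any of its nonzero elements. -/
theorem submodule_eq_line_of_card_lt {p : ℕ} [Fact p.Prime] {V : Type*} [AddCommGroup V]
    [Module (ZMod p) V] [Finite V] (hcard : Nat.card V < p ^ 3)
    (N : Submodule (ZMod p) V) (hbot : N ≠ ⊥) (htop : N ≠ ⊤)
    {v : V} (hv : v ∈ N) (hv0 : v ≠ 0) {w : V} (hw : w ∈ N) :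
    ∃ c : ZMod p, w = c • v := by
  have hp : p.Prime := Fact.out
  have hfd : Module.Finite (ZMod p) V := Module.Finite.of_finite
  have h1 : Nat.card V = p ^ finrank (ZMod p) V := by
    rw [Module.natCard_eq_pow_finrank (K := ZMod p), Nat.card_zmod]
  have h2 : finrank (ZMod p) V ≤ 2 := by
    rw [h1] at hcard
    have := (Nat.pow_lt_pow_iff_right hp.one_lt).1 hcard
    omega
  have h3 : finrank (ZMod p) N < finrank (ZMod p) V := Submodule.finrank_lt htop
  have h4 : finrank (ZMod p) N ≠ 0 := by
    intro h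
    exact hbot (Submodule.finrank_eq_zero.1 h)
  have h5 : finrank (ZMod p) N = 1 := by omega
  have hv' : (⟨v, hv⟩ : N) ≠ 0 := by
    intro h
    exact hv0 (congrArg Subtype.val h)
  obtain ⟨c, hc⟩ := (finrank_eq_one_iff_of_nonzero' (⟨v, hv⟩ : N) hv').1 h5 ⟨w, hw⟩
  exact ⟨c, (congrArg Subtype.val hc).symm⟩

end Fermat.Agent.S51
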