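/-
S51 helper library (helper52): the 5-torsion of an elliptic curve in Weierstrass form over a field
is finite with at most 25 points; consequences for submodules.
-/
import Fermat.Agent.S51.Dup
import Fermat.Agent.S51.LineLemma
import Mathlib.LinearAlgebra.FiniteDimensional.Basic
import Mathlib.Algebra.Module.Torsion.Basic
import Mathlib.SetTheory.Cardinal.Finite

set_option autoImplicit false

namespace Fermat.Agent.S51

open WeierstrassCurve WeierstrassCurve.Affine Polynomial

section Count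

variable {F : Type*} [Field F] [DecidableEq F] (W : Affine F)

/-- The abscissa of a nonzero 5-torsion point is a root of the fifth division polynomial. -/
lemma isRoot_preΨ'_five_of_five_nsmul (hΔ : W.Δ ≠ 0) {x y : F} (h : W.Nonsingular x y)
    (h5 : 5 • Point.some x y h = 0) : (W.preΨ' 5).IsRoot x := by
  rw [IsRoot.def, eval_preΨ'_five]
  exact (five_nsmul_eq_zero_iff W hΔ h).mp h5

/-- A reference point with a given abscissa (junk value `0` if there is none). -/
noncomputable def refPoint (x : F) : W.Point :=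
  open Classical in
  if h : ∃ Q : W.Point, Q ≠ 0 ∧ xc W Q = x then h.choose else 0

omit [DecidableEq F] in
lemma refPoint_spec {P : W.Point} (hP : P ≠ 0) :
    refPoint W (xc W P) ≠ 0 ∧ xc W (refPoint W (xc W P)) = xc W P := by
  have h : ∃ Q : W.Point, Q ≠ 0 ∧ xc W Q = xc W P := ⟨P, hP, rfl⟩
  unfold refPoint
  rw [dif_pos h]
  exact h.choose_spec

omit [DecidableEq F] in
lemma eq_refPoint_or_neg {P : W.Point} (hP : P ≠ 0) :
    P = refPoint W (xc W P) ∨ P = -refPoint W (xc W P) := by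
  obtain ⟨h0, hx⟩ := refPoint_spec W hP
  exact eq_or_eq_neg_of_xc_eq W hP h0 hx.symm

omit [DecidableEq F] in
lemma preΨ'_five_ne_zero (h5 : (5 : F) ≠ 0) : W.preΨ' 5 ≠ 0 :=
  W.preΨ'_ne_zero (n := 5) (by exact_mod_cast h5)

lemma xc_mem_roots (hΔ : W.Δ ≠ 0) (h5 : (5 : F) ≠ 0) {P : W.Point} (hP0 : P ≠ 0)
    (hP : 5 • P = 0) : xc W P ∈ (W.preΨ' 5).roots.toFinset := by
  rcases P with _ | ⟨x, y, h⟩
  · exact absurd rfl hP0
  · rw [Multiset.mem_toFinset, mem_roots (preΨ'_five_ne_zero W h5)]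
    exact isRoot_preΨ'_five_of_five_nsmul W hΔ h hP

lemma card_roots_preΨ'_five_le : (W.preΨ' 5).roots.toFinset.card ≤ 12 := by
  calc (W.preΨ' 5).roots.toFinset.card ≤ Multiset.card (W.preΨ' 5).roots :=
        Multiset.toFinset_card_le _
    _ ≤ (W.preΨ' 5).natDegree := card_roots' _
    _ ≤ 12 := by
        have := W.natDegree_preΨ'_le 5
        rw [if_neg (by decide)] at this
        exact this

/-- The set of 5-torsion points. -/
abbrev Tor5 : Type _ := Submodule.torsionBy ℤ W.Point ((5 : ℕ) : ℤ)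

lemma five_nsmul_of_mem {P : W.Point} (hP : P ∈ Submodule.torsionBy ℤ W.Point ((5 : ℕ) : ℤ)) :
    5 • P = 0 := by
  rw [Submodule.mem_torsionBy_iff, natCast_zsmul] at hP
  exact hP

/-- An injection of the 5-torsion into a finite set with at most `1 + 12 * 2` elements. -/
noncomputable def tor5Code (hΔ : W.Δ ≠ 0) (h5 : (5 : F) ≠ 0) (v : Tor5 W) :
    Option ((W.preΨ' 5).roots.toFinset × Bool) :=
  open Classical in
  if h0 : (v : W.Point) = 0 then none
  else some (⟨xc W v, xc_mem_roots W hΔ h5 h0 (five_nsmul_of_mem W v.2)⟩,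
    decide ((v : W.Point) = refPoint W (xc W v)))

lemma tor5Code_injective (hΔ : W.Δ ≠ 0) (h5 : (5 : F) ≠ 0) :
    Function.Injective (tor5Code W hΔ h5) := by
  intro v w hvw
  unfold tor5Code at hvw
  by_cases hv : (v : W.Point) = 0
  · by_cases hw : (w : W.Point) = 0
    · exact Subtype.ext (hv.trans hw.symm)
    · rw [dif_pos hv, dif_neg hw] at hvw
      exact absurd hvw (by simp)
  · by_cases hw : (w : W.Point) = 0
    · rw [dif_neg hv, dif_pos hw] at hvw
      exact absurd hvw (by simp)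
    · rw [dif_neg hv, dif_neg hw] at hvw
      simp only [Option.some.injEq, Prod.mk.injEq, Subtype.mk.injEq, decide_eq_decide] at hvw
      obtain ⟨hx, hd⟩ := hvw
      apply Subtype.ext
      rcases eq_refPoint_or_neg W hv with h1 | h1
      · have h2 := hd.mp h1
        rw [h1, h2, hx]
      · rcases eq_refPoint_or_neg W hw with h2 | h2
        · have h1' := hd.mpr h2
          rw [h1', h2, hx]
        · rw [h1, h2, hx]

theorem finite_tor5 (hΔ : W.Δ ≠ 0) (h5 : (5 : F) ≠ 0) : Finite (Tor5 W) :=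
  Finite.of_injective _ (tor5Code_injective W hΔ h5)

theorem card_tor5_le (hΔ : W.Δ ≠ 0) (h5 : (5 : F) ≠ 0) : Nat.card (Tor5 W) ≤ 25 := by
  have h1 := Nat.card_le_card_of_injective _ (tor5Code_injective W hΔ h5)
  have h2 : Nat.card (Option ((W.preΨ' 5).roots.toFinset × Bool)) ≤ 25 := by
    rw [Nat.card_eq_fintype_card, Fintype.card_option, Fintype.card_prod, Fintype.card_coe,
      Fintype.card_bool]
    have := card_roots_preΨ'_five_le W
    omega
  exact h1.trans h2

/-- Line structure: a submodule of the 5-torsion (for any `ZMod 5`-module structure on it) which is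
neither `⊥` nor `⊤` consists of the multiples of any of its nonzero elements. -/
theorem tor5_line (hΔ : W.Δ ≠ 0) (h5 : (5 : F) ≠ 0) [Module (ZMod 5) (Tor5 W)]
    (N : Submodule (ZMod 5) (Tor5 W)) (hbot : N ≠ ⊥) (htop : N ≠ ⊤)
    {v w : Tor5 W} (hv : v ∈ N) (hv0 : v ≠ 0) (hw : w ∈ N) :
    ∃ k : ℕ, k < 5 ∧ w = k • v := by
  have : Fact (Nat.Prime 5) := ⟨by norm_num⟩
  have := finite_tor5 W hΔ h5
  have hcard : Nat.card (Tor5 W) < 5 ^ 3 := lt_of_le_of_lt (card_tor5_le W hΔ h5) (by norm_num)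
  obtain ⟨c, hc⟩ := submodule_eq_line_of_card_lt hcard N hbot htop hv hv0 hw
  refine ⟨c.val, ZMod.val_lt c, ?_⟩
  rw [hc, ← Nat.cast_smul_eq_nsmul (ZMod 5) c.val v, ZMod.natCast_zmod_val]

/-- For a 5-torsion point `P` and `0 < k < 5`, the abscissas of `kP, 2kP` are those of `P, 2P`,
possibly swapped. -/
lemma xc_nsmul_five {P : W.Point} (hP : 5 • P = 0) {k : ℕ} (hk : k < 5) (hk0 : k ≠ 0) :
    (xc W (k • P) = xc W P ∧ xc W (2 • (k • P)) = xc W (2 • P)) ∨
      (xc W (k • P) = xc W (2 • P) ∧ xc W (2 • (k • P)) = xc W P) := by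
  have h4 : (4 : ℕ) • P = -P := by
    have : (4 : ℕ) • P + P = 0 := by rw [← hP]; abel
    exact eq_neg_of_add_eq_zero_left this
  have h3 : (3 : ℕ) • P = -((2 : ℕ) • P) := by
    have : (3 : ℕ) • P + (2 : ℕ) • P = 0 := by rw [← hP]; abel
    exact eq_neg_of_add_eq_zero_left this
  interval_cases k
  · exact absurd rfl hk0
  · left; simp
  · right
    refine ⟨rfl, ?_⟩
    rw [show 2 • (2 • P) = 4 • P by abel, h4, xc_neg]
  · right
    refine ⟨by rw [h3, xc_neg], ?_⟩
    rw [show 2 • (3 • P) = 5 • P + P by abel, hP, zero_add]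
  · left
    refine ⟨by rw [h4, xc_neg], ?_⟩
    rw [h4, smul_neg, xc_neg]

end Count

end Fermat.Agent.S51
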