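/-
S51 helper (helper52): the Galois step for `n = 5` in the types of the frozen statement.
From `¬ W.ModRepIsIrreducible 5` we extract the abscissas `x₁ = x(P)`, `x₂ = x(2P)` of a stable line
of `E[5]`, with the two duplication relations and rationality of the symmetric functions.
-/
import Fermat.Agent.S51.Tors5
import Fermat.Agent.S51.GalFixed
import Fermat.Agent.S51.Exists5
import Fermat.Prelude.Def_FLTPrelim_ModularRep

set_option autoImplicit false

namespace Fermat.Agent.S51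

open WeierstrassCurve WeierstrassCurve.Affine WeierstrassCurve.Affine.Point

/-- The base change to `AlgebraicClosure ℚ` of an integral Weierstrass curve, in exactly the shape
occurring in `WeierstrassCurve.ModRepIsIrreducible`. -/
noncomputable abbrev EQbar (W : WeierstrassCurve ℤ) : Affine (AlgebraicClosure ℚ) :=
  (W.map (Int.castRingHom ℚ))⁄(AlgebraicClosure ℚ)

section Action

variable (W : WeierstrassCurve ℤ)

lemma xc_smul (σ : AlgebraicClosure ℚ ≃ₐ[ℚ] AlgebraicClosure ℚ) (P : (EQbar W).Point) :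
    xc (EQbar W) (σ • P) = σ (xc (EQbar W) P) := by
  rw [algEquiv_smul_def]
  rcases P with _ | ⟨x, y, h⟩
  · show (0 : AlgebraicClosure ℚ) = σ 0
    rw [_root_.map_zero]
  · rfl

lemma smul_nsmul (σ : AlgebraicClosure ℚ ≃ₐ[ℚ] AlgebraicClosure ℚ) (k : ℕ) (P : (EQbar W).Point) :
    σ • (k • P) = k • (σ • P) := by
  rw [algEquiv_smul_def, algEquiv_smul_def, map_nsmul]

end Action

section Main

variable (W : WeierstrassCurve ℤ)

/-- **Galois step for `n = 5`.** If the mod-5 representation is reducible, there are `x₁ ≠ x₂` in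
`ℚ̄` (abscissas of `P` and `2P` for a generator `P` of a stable line) satisfying the two duplication
relations `(x₁ - x₂) Ψ₂Sq(x₁) = ψ₃(x₁)`, `(x₂ - x₁) Ψ₂Sq(x₂) = ψ₃(x₂)`, `ψ₅(x₁) = 0`, and such that
`x₁ + x₂` and `(x₁ - x₂)²` are rational. -/
theorem five_gal (hΔ : W.Δ ≠ 0) (hred : ¬ W.ModRepIsIrreducible 5) :
    ∃ (x₁ x₂ : AlgebraicClosure ℚ) (s q : ℚ), x₁ ≠ x₂ ∧
      (x₁ - x₂) * tb6 (EQbar W) x₁ = tb8 (EQbar W) x₁ ∧
      (x₂ - x₁) * tb6 (EQbar W) x₂ = tb8 (EQbar W) x₂ ∧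
      tpsi5 (EQbar W) x₁ = 0 ∧
      x₁ + x₂ = algebraMap ℚ (AlgebraicClosure ℚ) s ∧
      (x₁ - x₂) ^ 2 = algebraMap ℚ (AlgebraicClosure ℚ) q := by
  have hΔ' : (EQbar W).Δ ≠ 0 := Exists5.Δ_baseChange_ne_zero W hΔ
  have h5K : (5 : AlgebraicClosure ℚ) ≠ 0 := by norm_num
  unfold WeierstrassCurve.ModRepIsIrreducible GaloisRepIsIrreducible at hred
  rw [not_and_or] at hred
  rcases hred with hred | hred
  · exact absurd (Exists5.nontrivial_torsionBy_five_frozen W hΔ) hred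
  push Not at hred
  obtain ⟨N, hstab, hbot, htop⟩ := hred
  -- a nonzero element of the line
  obtain ⟨v, hvN, hv0⟩ := Submodule.exists_mem_ne_zero_of_ne_bot hbot
  have hP5 : 5 • (v : (EQbar W).Point) = 0 := five_nsmul_of_mem (EQbar W) v.2
  have hP0 : (v : (EQbar W).Point) ≠ 0 := fun h => hv0 (Subtype.ext h)
  -- coordinates
  obtain ⟨P, hP⟩ : ∃ P : (EQbar W).Point, P = (v : (EQbar W).Point) := ⟨_, rfl⟩
  rw [← hP] at hP5 hP0
  rcases P with _ | ⟨x₁, y₁, h₁⟩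
  · exact absurd rfl hP0
  have ht5 : tpsi5 (EQbar W) x₁ = 0 := (five_nsmul_eq_zero_iff (EQbar W) hΔ' h₁).mp hP5
  have h6 := tb6_ne_zero_of_tpsi5 (EQbar W) hΔ' ht5
  have h8 := tb8_ne_zero_of_tpsi5 (EQbar W) hΔ' ht5
  obtain ⟨x₂, y₂, h₂, h2P, hx₂⟩ := add_self_some (EQbar W) h₁ ((tb6_ne_zero_iff (EQbar W) h₁.1).mp h6)
  have hne : x₁ ≠ x₂ := by
    intro h
    rw [h, sub_self, zero_mul] at hx₂
    exact h8 (by rw [h]; exact hx₂.symm)
  -- the same at `2P`
  have h2P' : 2 • Point.some x₁ y₁ h₁ = Point.some x₂ y₂ h₂ := by rw [two_nsmul, h2P]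
  have hQ5 : 5 • Point.some x₂ y₂ h₂ = 0 := by
    rw [← h2P', smul_comm, hP5, smul_zero]
  have ht5' : tpsi5 (EQbar W) x₂ = 0 := (five_nsmul_eq_zero_iff (EQbar W) hΔ' h₂).mp hQ5
  have h6' := tb6_ne_zero_of_tpsi5 (EQbar W) hΔ' ht5'
  obtain ⟨x₄, y₄, h₄, h4P, hx₄⟩ :=
    add_self_some (EQbar W) h₂ ((tb6_ne_zero_iff (EQbar W) h₂.1).mp h6')
  have hx₄' : x₄ = x₁ := by
    have := xc_nsmul_five (EQbar W) hP5 (k := 2) (by norm_num) (by norm_num)
    rw [h2P', two_nsmul, h4P] at this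
    rcases this with ⟨h, -⟩ | ⟨-, h⟩
    · exact absurd h.symm hne
    · exact h
  rw [hx₄'] at hx₄
  -- Galois action permutes `{x₁, x₂}`
  have hperm : ∀ σ : AlgebraicClosure ℚ ≃ₐ[ℚ] AlgebraicClosure ℚ,
      (σ x₁ = x₁ ∧ σ x₂ = x₂) ∨ (σ x₁ = x₂ ∧ σ x₂ = x₁) := by
    intro σ
    have hσN : σ • v ∈ N := hstab σ v hvN
    obtain ⟨k, hk5, hk⟩ := tor5_line (EQbar W) hΔ' h5K N hbot htop hvN hv0 hσN
    have hk' : σ • Point.some x₁ y₁ h₁ = k • Point.some x₁ y₁ h₁ := by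
      have := congrArg (Subtype.val) hk
      rw [hP]
      exact this
    have hk0 : k ≠ 0 := by
      rintro rfl
      rw [zero_nsmul] at hk'
      have hinj : Point.map (W' := W.map (Int.castRingHom ℚ)) σ.toAlgHom (Point.some x₁ y₁ h₁) =
          Point.map (W' := W.map (Int.castRingHom ℚ)) σ.toAlgHom 0 := hk'
      exact hP0 (Point.map_injective _ hinj)
    have h1 : xc (EQbar W) (k • Point.some x₁ y₁ h₁) = σ x₁ := by
      rw [← hk', xc_smul]; rfl
    have h2 : xc (EQbar W) (2 • (k • Point.some x₁ y₁ h₁)) = σ x₂ := by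
      rw [← hk', ← smul_nsmul, h2P', xc_smul]; rfl
    have := xc_nsmul_five (EQbar W) hP5 hk5 hk0
    rw [h1, h2, h2P'] at this
    exact this
  -- rationality
  obtain ⟨s, hs⟩ := mem_range_of_forall_algEquiv_fixed (x₁ + x₂) (by
    intro σ
    rcases hperm σ with ⟨h1, h2⟩ | ⟨h1, h2⟩
    · rw [map_add, h1, h2]
    · rw [map_add, h1, h2, add_comm])
  obtain ⟨q, hq⟩ := mem_range_of_forall_algEquiv_fixed ((x₁ - x₂) ^ 2) (by
    intro σ
    rcases hperm σ with ⟨h1, h2⟩ | ⟨h1, h2⟩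
    · rw [map_pow, map_sub, h1, h2]
    · rw [map_pow, map_sub, h1, h2]; ring)
  exact ⟨x₁, x₂, s, q, hne, hx₂, hx₄, ht5, hs.symm, hq.symm⟩

end Main

end Fermat.Agent.S51
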