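/-
S51 helper (helper52): the two final forms of the 5-side, on top of `five_gal`.
* `five_side_rd`: the `(r, d)` form consumed by `Fermat.Agent.S51.core` (Core.lean);
* `five_side_t`: the `t` form `c₄³ t = Δ (t² + 10 t + 5)³`.
-/
import Fermat.Agent.S51.FiveGal

set_option autoImplicit false

namespace Fermat.Agent.S51

open WeierstrassCurve WeierstrassCurve.Affine

section Algebra

variable {F : Type*} [Field F]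

/-- The parametrisation identity for 5-isogenies: with `D = (x(P) - x(2P))²` one has
`c₄ D⁵ = Δ² + 10 Δ D³ + 5 D⁶` (written in the invariants translated to `x(P)`). -/
lemma c5_identity (B2 B4 B6 B8 D c4 Δ : F) (h6 : B6 ≠ 0) (h8 : B8 ≠ 0)
    (hrel : 4 * B8 = B2 * B6 - B4 ^ 2) (h5 : (B4 * B8 - B6 ^ 2) * B6 ^ 2 - B8 ^ 3 = 0)
    (hD : D * B6 ^ 2 = B8 ^ 2) (hc4 : c4 = B2 ^ 2 - 24 * B4)
    (hΔ : Δ = -B2 ^ 2 * B8 - 8 * B4 ^ 3 - 27 * B6 ^ 2 + 9 * B2 * B4 * B6) :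
    c4 * D ^ 5 = Δ ^ 2 + 10 * Δ * D ^ 3 + 5 * D ^ 6 := by
  have hB4 : B4 = (B6 ^ 4 + B8 ^ 3) / (B8 * B6 ^ 2) := by
    field_simp
    linear_combination h5
  have hB2 : B2 = (4 * B8 + B4 ^ 2) / B6 := by
    field_simp
    linear_combination -hrel
  have hD' : D = B8 ^ 2 / B6 ^ 2 := by
    field_simp
    linear_combination hD
  rw [hc4, hΔ, hD', hB2, hB4]
  field_simp
  ring

/-- From the two duplication relations at `x₁ = x(P)`, `x₂ = x(2P)` to the `(r, d)` equations. -/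
lemma rd_of_dup [CharZero F] (b2 b4 b6 b8 x₁ x₂ : F) (hne : x₁ ≠ x₂)
    (R1 : (x₁ - x₂) * (4 * x₁ ^ 3 + b2 * x₁ ^ 2 + 2 * b4 * x₁ + b6)
      = 3 * x₁ ^ 4 + b2 * x₁ ^ 3 + 3 * b4 * x₁ ^ 2 + 3 * b6 * x₁ + b8)
    (R2 : (x₂ - x₁) * (4 * x₂ ^ 3 + b2 * x₂ ^ 2 + 2 * b4 * x₂ + b6)
      = 3 * x₂ ^ 4 + b2 * x₂ ^ 3 + 3 * b4 * x₂ ^ 2 + 3 * b6 * x₂ + b8)
    (r d : F) (hr : 2 * r = x₁ + x₂) (hd : 4 * d = (x₁ - x₂) ^ 2) :
    b6 + 2 * r * b4 + r ^ 2 * b2 + 4 * r ^ 3 = (b2 + 12 * r) * d ∧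
    b8 + 3 * r * b6 + 3 * r ^ 2 * b4 + r ^ 3 * b2 + 3 * r ^ 4
      = 5 * d ^ 2 + (b4 + r * b2 + 6 * r ^ 2) * d := by
  have hr' : r = (x₁ + x₂) / 2 := by field_simp; linear_combination hr
  have hd' : d = (x₁ - x₂) ^ 2 / 4 := by field_simp; linear_combination hd
  subst hr' hd'
  constructor
  · have hx : x₁ - x₂ ≠ 0 := sub_ne_zero.mpr hne
    have key : (b6 + 2 * ((x₁ + x₂) / 2) * b4 + ((x₁ + x₂) / 2) ^ 2 * b2 + 4 * ((x₁ + x₂) / 2) ^ 3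
        - (b2 + 12 * ((x₁ + x₂) / 2)) * ((x₁ - x₂) ^ 2 / 4)) * (x₁ - x₂) = 0 := by
      linear_combination (-1 : F) * R1 + R2
    rcases mul_eq_zero.mp key with h | h
    · exact sub_eq_zero.mp h
    · exact absurd h hx
  · linear_combination (-1 / 2 : F) * R1 + (-1 / 2 : F) * R2

end Algebra

section Final

variable (W : WeierstrassCurve ℤ)

lemma EQbar_b₂ : (EQbar W).b₂ = ((W.b₂ : ℚ) : AlgebraicClosure ℚ) := by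
  show ((W.map (Int.castRingHom ℚ)).map (algebraMap ℚ (AlgebraicClosure ℚ))).b₂ = _
  rw [map_b₂, map_b₂, eq_ratCast, eq_intCast]

lemma EQbar_b₄ : (EQbar W).b₄ = ((W.b₄ : ℚ) : AlgebraicClosure ℚ) := by
  show ((W.map (Int.castRingHom ℚ)).map (algebraMap ℚ (AlgebraicClosure ℚ))).b₄ = _
  rw [map_b₄, map_b₄, eq_ratCast, eq_intCast]

lemma EQbar_b₆ : (EQbar W).b₆ = ((W.b₆ : ℚ) : AlgebraicClosure ℚ) := by
  show ((W.map (Int.castRingHom ℚ)).map (algebraMap ℚ (AlgebraicClosure ℚ))).b₆ = _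
  rw [map_b₆, map_b₆, eq_ratCast, eq_intCast]

lemma EQbar_b₈ : (EQbar W).b₈ = ((W.b₈ : ℚ) : AlgebraicClosure ℚ) := by
  show ((W.map (Int.castRingHom ℚ)).map (algebraMap ℚ (AlgebraicClosure ℚ))).b₈ = _
  rw [map_b₈, map_b₈, eq_ratCast, eq_intCast]

lemma EQbar_c₄ : (EQbar W).c₄ = ((W.c₄ : ℚ) : AlgebraicClosure ℚ) := by
  show ((W.map (Int.castRingHom ℚ)).map (algebraMap ℚ (AlgebraicClosure ℚ))).c₄ = _
  rw [map_c₄, map_c₄, eq_ratCast, eq_intCast]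

lemma EQbar_Δ : (EQbar W).Δ = ((W.Δ : ℚ) : AlgebraicClosure ℚ) := by
  show ((W.map (Int.castRingHom ℚ)).map (algebraMap ℚ (AlgebraicClosure ℚ))).Δ = _
  rw [map_Δ, map_Δ, eq_ratCast, eq_intCast]

/-- **5-side, `(r, d)` form** (the hypotheses `hd`, `h5a`, `h5b` of `Fermat.Agent.S51.core`). -/
theorem five_side_rd (hΔ : W.Δ ≠ 0) (hred : ¬ W.ModRepIsIrreducible 5) :
    ∃ r d : ℚ, d ≠ 0 ∧
      (W.b₆ : ℚ) + 2 * r * (W.b₄ : ℚ) + r ^ 2 * (W.b₂ : ℚ) + 4 * r ^ 3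
        = ((W.b₂ : ℚ) + 12 * r) * d ∧
      (W.b₈ : ℚ) + 3 * r * (W.b₆ : ℚ) + 3 * r ^ 2 * (W.b₄ : ℚ) + r ^ 3 * (W.b₂ : ℚ) + 3 * r ^ 4
        = 5 * d ^ 2 + ((W.b₄ : ℚ) + r * (W.b₂ : ℚ) + 6 * r ^ 2) * d := by
  obtain ⟨x₁, x₂, s, q, hne, R1, R2, -, hs, hq⟩ := five_gal W hΔ hred
  rw [eq_ratCast] at hs hq
  have hq0 : q ≠ 0 := by
    rintro rfl
    rw [Rat.cast_zero] at hq
    exact hne (sub_eq_zero.mp (pow_eq_zero_iff two_ne_zero |>.mp hq))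
  refine ⟨s / 2, q / 4, by positivity, ?_⟩
  simp only [tb6, tb8, EQbar_b₂, EQbar_b₄, EQbar_b₆, EQbar_b₈] at R1 R2
  have key := rd_of_dup _ _ _ _ x₁ x₂ hne R1 R2 ((s / 2 : ℚ) : AlgebraicClosure ℚ)
    ((q / 4 : ℚ) : AlgebraicClosure ℚ) (by rw [hs]; push_cast; ring) (by rw [hq]; push_cast; ring)
  constructor
  · exact_mod_cast key.1
  · exact_mod_cast key.2

/-- **5-side, `t` form**: `t = Δ / (x(P) - x(2P))⁶` is rational and `j = (t² + 10 t + 5)³ / t`. -/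
theorem five_side_t (hΔ : W.Δ ≠ 0) (hred : ¬ W.ModRepIsIrreducible 5) :
    ∃ t : ℚ, t ≠ 0 ∧ (W.c₄ : ℚ) ^ 3 * t = (W.Δ : ℚ) * (t ^ 2 + 10 * t + 5) ^ 3 := by
  obtain ⟨x₁, x₂, s, q, hne, R1, -, h5, -, hq⟩ := five_gal W hΔ hred
  rw [eq_ratCast] at hq
  have hΔ' : (EQbar W).Δ ≠ 0 := Exists5.Δ_baseChange_ne_zero W hΔ
  have hq0 : q ≠ 0 := by
    rintro rfl
    rw [Rat.cast_zero] at hq
    exact hne (sub_eq_zero.mp (pow_eq_zero_iff two_ne_zero |>.mp hq))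
  have h6 := tb6_ne_zero_of_tpsi5 (EQbar W) hΔ' h5
  have h8 := tb8_ne_zero_of_tpsi5 (EQbar W) hΔ' h5
  have hD : (q : AlgebraicClosure ℚ) * tb6 (EQbar W) x₁ ^ 2 = tb8 (EQbar W) x₁ ^ 2 := by
    rw [← hq, ← R1]; ring
  have key := c5_identity (tb2 (EQbar W) x₁) (tb4 (EQbar W) x₁) (tb6 (EQbar W) x₁)
    (tb8 (EQbar W) x₁) (q : AlgebraicClosure ℚ) (EQbar W).c₄ (EQbar W).Δ h6 h8
    (tb_relation (EQbar W) x₁) h5 hD (c₄_eq_tb (EQbar W) x₁) (Δ_eq_tb (EQbar W) x₁)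
  rw [EQbar_c₄, EQbar_Δ] at key
  have keyQ : (W.c₄ : ℚ) * q ^ 5 = (W.Δ : ℚ) ^ 2 + 10 * (W.Δ : ℚ) * q ^ 3 + 5 * q ^ 6 := by
    exact_mod_cast key
  have hΔQ : (W.Δ : ℚ) ≠ 0 := by exact_mod_cast hΔ
  refine ⟨(W.Δ : ℚ) / q ^ 3, by positivity, ?_⟩
  have e : ((W.Δ : ℚ) / q ^ 3) ^ 2 + 10 * ((W.Δ : ℚ) / q ^ 3) + 5 = (W.c₄ : ℚ) / q := by
    field_simp
    linear_combination -keyQ
  rw [e]
  field_simp

end Final

end Fermat.Agent.S51
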