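import Mathlib
import Fermat.Prelude.Def_FLTPrelim_GaloisRep
import Fermat.Prelude.Def_FLTPrelim_ModularRep
import Fermat.Agent.S51.GalFixed

/-!
# S51, the 3-side

For `W : WeierstrassCurve ℤ` with `Δ ≠ 0`, `K = AlgebraicClosure ℚ`, `E[3] = torsionBy ℤ (W_ℚ⁄K).Point 3`:

* `Tors3.nontrivial_torsion3` : `E[3]` is nontrivial;
* `Tors3.three_side_root_of_not_irr` : `¬ W.ModRepIsIrreducible 3` produces a rational root `x₀` of
  `Ψ₃` (integer `b`-invariants cast to `ℚ`) with `Ψ₂Sq(x₀) ≠ 0` (input shape of `Core.lean`);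
* `Tors3.three_side_of_not_irr` : `¬ W.ModRepIsIrreducible 3` produces `h : ℚ`, `h ≠ 0`, with
  `c₄³ h = Δ (h+27) (h+3)³` (this is the interface for the final glue);
* `Tors3.three_side` : a Galois-stable submodule `N ≠ ⊥, ⊤` of `E[3]` produces `h : ℚ`, `h ≠ 0`, with
  `c₄³ h = Δ (h+27) (h+3)³`.

Method: nonzero 3-torsion points are exactly the points with `Ψ₃(x) = 0` (via Mathlib's slope
formula); `|E[3]| ≤ 9` by counting roots; hence a proper nonzero subspace is a line `{0, ±P}`,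
`x(P)` is Galois-fixed, hence rational; translating `x(P)` to `0` gives the two identities
`B³ = Δ + 27 D²`, `c₄ D² = B (Δ + 3 D²)` with `D = ψ₂(P)²`, and `h = Δ / D²`.
-/

set_option autoImplicit false

namespace Fermat.Agent.S51.Tors3

open WeierstrassCurve WeierstrassCurve.Affine Polynomial



section general

variable {F : Type*} [Field F] (W : Affine F)

/-- The value of the 3-division polynomial at `x`. -/
def psi3 (x : F) : F := 3 * x ^ 4 + W.b₂ * x ^ 3 + 3 * W.b₄ * x ^ 2 + 3 * W.b₆ * x + W.b₈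

lemma eval_Ψ₃_eq (x : F) : (WeierstrassCurve.Ψ₃ W).eval x = psi3 W x := by
  simp [WeierstrassCurve.Ψ₃, psi3]

/-- key identity: on the curve, `Ψ₃ = (3x+a₂)ψ₂² - a₁ψ₂n - n²`, `n = -F_x`. -/
lemma psi3_identity {x y : F} (h : W.Equation x y) :
    psi3 W x = (3 * x + W.a₂) * (2 * y + W.a₁ * x + W.a₃) ^ 2
      - W.a₁ * (2 * y + W.a₁ * x + W.a₃) * (3 * x ^ 2 + 2 * W.a₂ * x + W.a₄ - W.a₁ * y)
      - (3 * x ^ 2 + 2 * W.a₂ * x + W.a₄ - W.a₁ * y) ^ 2 := by
  rw [equation_iff] at h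
  simp only [psi3, b₂, b₄, b₆, b₈]
  linear_combination (-(W.a₁ ^ 2 + 4 * W.a₂ + 12 * x)) * h

variable [DecidableEq F]

lemma three_zsmul_eq (P : W.Point) : (3 : ℤ) • P = P + P + P := by
  have : (3 : ℤ) = 1 + 1 + 1 := by norm_num
  rw [this, add_smul, add_smul, one_smul]

lemma psi2_ne_zero_of_ne_negY {x y : F} (hy : y ≠ W.negY x y) : 2 * y + W.a₁ * x + W.a₃ ≠ 0 := by
  intro h0
  apply hy
  simp only [negY]
  linear_combination h0

/-- the doubling x-coordinate minus x, times ψ₂², is -Ψ₃. -/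
lemma addX_self_sub {x y : F} (h : W.Equation x y) (hy : y ≠ W.negY x y) :
    W.addX x x (W.slope x x y y) - x = - psi3 W x / (2 * y + W.a₁ * x + W.a₃) ^ 2 := by
  have hne := psi2_ne_zero_of_ne_negY W hy
  rw [slope_of_Y_ne rfl hy, psi3_identity W h]
  have h2 : y - W.negY x y = 2 * y + W.a₁ * x + W.a₃ := by simp only [negY]; ring
  rw [h2]
  simp only [addX]
  generalize 2 * y + W.a₁ * x + W.a₃ = d at hne ⊢
  generalize 3 * x ^ 2 + 2 * W.a₂ * x + W.a₄ - W.a₁ * y = n at *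
  field_simp
  ring

/-- a nonzero 3-torsion point has `ψ₂ ≠ 0` and `Ψ₃(x) = 0`. -/
lemma psi3_eq_zero_of_three_smul {x y : F} (h : W.Nonsingular x y)
    (h3 : (3 : ℤ) • (Point.some x y h) = 0) : y ≠ W.negY x y ∧ psi3 W x = 0 := by
  rw [three_zsmul_eq, add_eq_zero_iff_eq_neg] at h3
  have hy : y ≠ W.negY x y := by
    intro hy
    rw [Point.add_self_of_Y_eq hy] at h3
    exact Point.some_ne_zero h (neg_eq_zero.mp h3.symm)
  refine ⟨hy, ?_⟩
  rw [Point.add_self_of_Y_ne hy, Point.neg_some, Point.some.injEq] at h3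
  have hx := addX_self_sub W h.1 hy
  rw [h3.1, sub_self] at hx
  have hne := psi2_ne_zero_of_ne_negY W hy
  have := hx.symm
  rw [div_eq_zero_iff] at this
  rcases this with h1 | h1
  · exact neg_eq_zero.mp h1
  · exact absurd (pow_eq_zero_iff (two_ne_zero)|>.mp h1) hne

/-- conversely a point with `Ψ₃(x) = 0` is 3-torsion. -/
lemma three_smul_of_psi3_eq_zero {x y : F} (h : W.Nonsingular x y) (h3 : psi3 W x = 0) :
    (3 : ℤ) • (Point.some x y h) = 0 := by
  have hy : y ≠ W.negY x y := by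
    intro hy
    have h0 : 2 * y + W.a₁ * x + W.a₃ = 0 := by
      have := hy
      simp only [negY] at this
      linear_combination this
    have hid := psi3_identity W h.1
    rw [h3, h0] at hid
    have hFx : W.a₁ * y - (3 * x ^ 2 + 2 * W.a₂ * x + W.a₄) = 0 := by
      have : (3 * x ^ 2 + 2 * W.a₂ * x + W.a₄ - W.a₁ * y) ^ 2 = 0 := by
        linear_combination hid
      have := pow_eq_zero_iff (two_ne_zero) |>.mp this
      linear_combination -this
    rcases (W.nonsingular_iff' x y).mp h with ⟨-, h1 | h1⟩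
    · exact h1 hFx
    · exact h1 h0
  rw [three_zsmul_eq, add_eq_zero_iff_eq_neg]
  have hx := addX_self_sub W h.1 hy
  rw [h3, neg_zero, zero_div, sub_eq_zero] at hx
  have hadd := Point.add_self_of_Y_ne (h₁ := h) hy
  rcases Point.X_eq_iff.mp hx with h1 | h1
  · exfalso
    rw [← hadd] at h1
    have h0 : Point.some x y h = 0 := by
      have h5 : Point.some x y h + Point.some x y h = Point.some x y h + 0 := by
        rw [add_zero]; exact h1
      exact add_left_cancel h5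
    exact Point.some_ne_zero h h0
  · rw [hadd]; exact h1
  
end general




section card
variable {F : Type*} [Field F] [DecidableEq F] (W : Affine F)

/-- the quadratic polynomial in `Y` whose roots are the `y`-coordinates over `x`. -/
noncomputable def polyY (x : F) : F[X] :=
  C 1 * X ^ 2 + C (W.a₁ * x + W.a₃) * X + C (-(x ^ 3 + W.a₂ * x ^ 2 + W.a₄ * x + W.a₆))

omit [DecidableEq F] in
lemma polyY_ne_zero (x : F) : polyY W x ≠ 0 := by
  intro h
  have h2 := natDegree_quadratic (a := (1 : F)) (b := W.a₁ * x + W.a₃)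
    (c := -(x ^ 3 + W.a₂ * x ^ 2 + W.a₄ * x + W.a₆)) one_ne_zero
  rw [polyY] at h
  rw [h] at h2
  simp at h2

omit [DecidableEq F] in
lemma isRoot_polyY {x y : F} (h : W.Equation x y) : (polyY W x).IsRoot y := by
  rw [equation_iff] at h
  simp only [polyY, IsRoot, eval_add, eval_mul, eval_C, eval_pow, eval_X]
  linear_combination h

/-- candidate coordinates of nonzero 3-torsion points. -/
noncomputable def candSet : Finset (F × F) :=
  ((WeierstrassCurve.Ψ₃ W).roots.toFinset).biUnion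
    (fun x => ((polyY W x).roots.toFinset).image (Prod.mk x))

lemma card_candSet_le : (candSet W).card ≤ 8 := by
  refine (Finset.card_biUnion_le_card_mul _ _ 2 ?_).trans ?_
  · intro x _
    refine Finset.card_image_le.trans ?_
    exact (Multiset.toFinset_card_le _).trans ((card_roots' _).trans natDegree_quadratic_le)
  · have : ((WeierstrassCurve.Ψ₃ W).roots.toFinset).card ≤ 4 :=
      (Multiset.toFinset_card_le _).trans ((card_roots' _).trans (natDegree_Ψ₃_le W))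
    omega

/-- coordinates of a point. -/
def coords : W.Point → Option (F × F)
  | .zero => none
  | .some x y _ => some (x, y)

omit [DecidableEq F] in
lemma coords_injective : Function.Injective (coords W) := by
  rintro (_ | ⟨x, y, h⟩) (_ | ⟨x', y', h'⟩) hh <;> simp_all [coords]

lemma coords_mem (h3 : (3 : F) ≠ 0) (P : W.Point) (hP : (3 : ℤ) • P = 0) :
    coords W P ∈ (candSet W).insertNone := by
  rw [Finset.mem_insertNone]
  intro a ha
  cases P with
  | zero => simp [coords] at ha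
  | some x y h =>
    simp only [coords, Option.mem_def, Option.some.injEq] at ha
    subst ha
    obtain ⟨-, hpsi⟩ := psi3_eq_zero_of_three_smul W h hP
    simp only [candSet, Finset.mem_biUnion, Finset.mem_image, Multiset.mem_toFinset]
    refine ⟨x, ?_, y, ?_, rfl⟩
    · rw [mem_roots (WeierstrassCurve.Ψ₃_ne_zero W h3), IsRoot, eval_Ψ₃_eq]
      exact hpsi
    · rw [mem_roots (polyY_ne_zero W x)]
      exact isRoot_polyY W h.1

theorem card_torsion3_le (h3 : (3 : F) ≠ 0) :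
    Finite (Submodule.torsionBy ℤ W.Point ((3 : ℕ) : ℤ)) ∧
      Nat.card (Submodule.torsionBy ℤ W.Point ((3 : ℕ) : ℤ)) ≤ 9 := by
  have hmem : ∀ P : Submodule.torsionBy ℤ W.Point ((3 : ℕ) : ℤ), (3 : ℤ) • (P : W.Point) = 0 := by
    intro P
    have := P.2
    rw [Submodule.mem_torsionBy_iff] at this
    simpa using this
  let f : Submodule.torsionBy ℤ W.Point ((3 : ℕ) : ℤ) → ((candSet W).insertNone : Finset _) :=
    fun P => ⟨coords W P.1, coords_mem W h3 P.1 (hmem P)⟩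
  have hf : Function.Injective f := by
    intro P Q hPQ
    have : coords W P.1 = coords W Q.1 := congrArg Subtype.val hPQ
    exact Subtype.ext (coords_injective W this)
  refine ⟨Finite.of_injective f hf, ?_⟩
  calc Nat.card (Submodule.torsionBy ℤ W.Point ((3 : ℕ) : ℤ))
      ≤ Nat.card ((candSet W).insertNone : Finset _) := Nat.card_le_card_of_injective f hf
    _ = ((candSet W).insertNone).card := Nat.card_eq_finsetCard _
    _ = (candSet W).card + 1 := Finset.card_insertNone _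
    _ ≤ 9 := by have := card_candSet_le W; omega

end card




section exist
variable {F : Type*} [Field F] [DecidableEq F] (W : Affine F)

theorem exists_three_torsion [IsAlgClosed F] (h3 : (3 : F) ≠ 0) (hΔ : W.Δ ≠ 0) :
    ∃ P : W.Point, P ≠ 0 ∧ (3 : ℤ) • P = 0 := by
  obtain ⟨x, hx⟩ := IsAlgClosed.exists_root (WeierstrassCurve.Ψ₃ W) (by
    rw [degree_eq_natDegree (WeierstrassCurve.Ψ₃_ne_zero W h3), WeierstrassCurve.natDegree_Ψ₃ W h3]
    norm_num)
  obtain ⟨y, hy⟩ := IsAlgClosed.exists_root (polyY W x) (by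
    rw [degree_eq_natDegree (polyY_ne_zero W x), polyY, natDegree_quadratic one_ne_zero]
    norm_num)
  have heq : W.Equation x y := by
    rw [equation_iff]
    simp only [polyY, IsRoot, eval_add, eval_mul, eval_C, eval_pow, eval_X] at hy
    linear_combination hy
  have hns : W.Nonsingular x y := (W.equation_iff_nonsingular_of_Δ_ne_zero hΔ).mp heq
  refine ⟨.some x y hns, Point.some_ne_zero hns, three_smul_of_psi3_eq_zero W hns ?_⟩
  rw [← eval_Ψ₃_eq]
  exact hx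

end exist

section linalg

/-- In an `𝔽₃`-vector space with at most 9 elements, a proper nonzero subspace is a line. -/
theorem line_of_card_le_nine {V : Type*} [AddCommGroup V] [Module (ZMod 3) V] [Finite V]
    (hcard : Nat.card V ≤ 9) (N : Submodule (ZMod 3) V) (hbot : N ≠ ⊥) (htop : N ≠ ⊤)
    {P Q : V} (hP : P ∈ N) (hP0 : P ≠ 0) (hQ : Q ∈ N) : Q = 0 ∨ Q = P ∨ Q = -P := by
  have h2' : (2 : ZMod 3) = -1 := by decide
  have hcases : ∀ c : ZMod 3, c = 0 ∨ c = 1 ∨ c = 2 := by decide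
  have : Fact (Nat.Prime 3) := ⟨by norm_num⟩
  have hfin : Module.Finite (ZMod 3) V := inferInstance
  have h1 : Module.finrank (ZMod 3) V ≤ 2 := by
    have := Module.natCard_eq_pow_finrank (K := ZMod 3) (V := V)
    rw [Nat.card_zmod] at this
    by_contra hlt
    have hlt' : 3 ≤ Module.finrank (ZMod 3) V := by omega
    have h27 : 3 ^ 3 ≤ 3 ^ Module.finrank (ZMod 3) V := Nat.pow_le_pow_right (by norm_num) hlt'
    omega
  have h2 : Module.finrank (ZMod 3) N < Module.finrank (ZMod 3) V := Submodule.finrank_lt htop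
  have h3 : 0 < Module.finrank (ZMod 3) N := by
    rw [Module.finrank_pos_iff]
    exact (Submodule.nontrivial_iff_ne_bot).mpr hbot
  have h4 : Module.finrank (ZMod 3) N = 1 := by omega
  have hP' : (⟨P, hP⟩ : N) ≠ 0 := by
    intro h
    exact hP0 (congrArg Subtype.val h)
  obtain ⟨c, hc⟩ := (finrank_eq_one_iff_of_nonzero' (⟨P, hP⟩ : N) hP').mp h4 ⟨Q, hQ⟩
  have hc' : c • P = Q := congrArg Subtype.val hc
  rcases hcases c with rfl | rfl | rfl
  · left; rw [← hc', zero_smul]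
  · right; left; rw [← hc', one_smul]
  · right; right; rw [← hc', h2', neg_smul, one_smul]

end linalg




section ident
variable {R : Type*} [CommRing R] (W : WeierstrassCurve R)

/-- the two identities behind `j = (h+27)(h+3)^3/h` for a curve with a rational 3-isogeny. -/
lemma three_isog_identities (r : R)
    (h : 3 * r ^ 4 + W.b₂ * r ^ 3 + 3 * W.b₄ * r ^ 2 + 3 * W.b₆ * r + W.b₈ = 0) :
    (W.b₄ + W.b₂ * r + 6 * r ^ 2) ^ 3
        = W.Δ + 27 * (4 * r ^ 3 + W.b₂ * r ^ 2 + 2 * W.b₄ * r + W.b₆) ^ 2 ∧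
      W.c₄ * (4 * r ^ 3 + W.b₂ * r ^ 2 + 2 * W.b₄ * r + W.b₆) ^ 2
        = (W.b₄ + W.b₂ * r + 6 * r ^ 2) *
          (W.Δ + 3 * (4 * r ^ 3 + W.b₂ * r ^ 2 + 2 * W.b₄ * r + W.b₆) ^ 2) := by
  constructor
  · simp only [b₂, b₄, b₆, b₈, c₄, Δ] at *
    linear_combination ((W.a₁ ^ 2 + 4 * W.a₂ + 12 * r) ^ 2
      - 36 * ((2 * W.a₄ + W.a₁ * W.a₃) + (W.a₁ ^ 2 + 4 * W.a₂) * r + 6 * r ^ 2)) * h
  · simp only [b₂, b₄, b₆, b₈, c₄, Δ] at *
    linear_combination (16 * (3 * r ^ 4 + (W.a₁ ^ 2 + 4 * W.a₂) * r ^ 3 + 3 * (2 * W.a₄ + W.a₁ * W.a₃) * r ^ 2 + 3 * (W.a₃ ^ 2 + 4 * W.a₆) * r + (W.a₁ ^ 2 * W.a₆ + 4 * W.a₂ * W.a₆ - W.a₁ * W.a₃ * W.a₄ + W.a₂ * W.a₃ ^ 2 - W.a₄ ^ 2))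
      + ((2 * W.a₄ + W.a₁ * W.a₃) + (W.a₁ ^ 2 + 4 * W.a₂) * r + 6 * r ^ 2) * (W.a₁ ^ 2 + 4 * W.a₂ + 12 * r) ^ 2
      - 28 * ((2 * W.a₄ + W.a₁ * W.a₃) + (W.a₁ ^ 2 + 4 * W.a₂) * r + 6 * r ^ 2) ^ 2) * h

/-- the resulting relation `c₄³ D⁶ = (Δ+27D²)(Δ+3D²)³`. -/
lemma three_isog_relation (r : R)
    (h : 3 * r ^ 4 + W.b₂ * r ^ 3 + 3 * W.b₄ * r ^ 2 + 3 * W.b₆ * r + W.b₈ = 0) :
    W.c₄ ^ 3 * ((4 * r ^ 3 + W.b₂ * r ^ 2 + 2 * W.b₄ * r + W.b₆) ^ 2) ^ 3
      = (W.Δ + 27 * (4 * r ^ 3 + W.b₂ * r ^ 2 + 2 * W.b₄ * r + W.b₆) ^ 2) *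
        (W.Δ + 3 * (4 * r ^ 3 + W.b₂ * r ^ 2 + 2 * W.b₄ * r + W.b₆) ^ 2) ^ 3 := by
  obtain ⟨h1, h2⟩ := three_isog_identities W r h
  rw [← mul_pow, h2, mul_pow, h1]

end ident




section final

variable (W : WeierstrassCurve ℤ)

/-- the curve over `ℚ̄`. -/
noncomputable abbrev EK : Affine (AlgebraicClosure ℚ) :=
  (W.map (Int.castRingHom ℚ))⁄(AlgebraicClosure ℚ)

lemma EK_Δ_ne_zero (hΔ : W.Δ ≠ 0) : (EK W).Δ ≠ 0 := by
  have h1 : (EK W).Δ = algebraMap ℚ (AlgebraicClosure ℚ) ((W.Δ : ℤ) : ℚ) := by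
    simp [EK, WeierstrassCurve.baseChange, WeierstrassCurve.map_Δ]
  rw [h1]
  simpa using hΔ

theorem nontrivial_torsion3 (hΔ : W.Δ ≠ 0) :
    Nontrivial (Submodule.torsionBy ℤ ((W.map (Int.castRingHom ℚ))⁄(AlgebraicClosure ℚ)).Point
      (3 : ℕ)) := by
  have h3 : (3 : AlgebraicClosure ℚ) ≠ 0 := by norm_num
  obtain ⟨P, hP0, hP3⟩ := exists_three_torsion (EK W) h3 (EK_Δ_ne_zero W hΔ)
  have hmem : P ∈ Submodule.torsionBy ℤ (EK W).Point ((3 : ℕ) : ℤ) := by
    rw [Submodule.mem_torsionBy_iff]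
    simpa using hP3
  refine ⟨⟨⟨P, hmem⟩, 0, ?_⟩⟩
  intro h
  exact hP0 (congrArg Subtype.val h)

end final




section final

variable (W : WeierstrassCurve ℤ)

lemma smul_some_val (σ : AlgebraicClosure ℚ ≃ₐ[ℚ] AlgebraicClosure ℚ)
    {x y : AlgebraicClosure ℚ} (hxy : (EK W).Nonsingular x y) :
    ∃ h', σ • (Point.some x y hxy : (EK W).Point) = Point.some (σ x) (σ y) h' := by
  refine ⟨?_, ?_⟩
  swap
  · rw [Point.algEquiv_smul_def]
    exact Point.map_some _ hxy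

/-- Galois-stable line in `E[3]` ⟹ the `x`-coordinate of a generator is Galois-fixed. -/
theorem x_fixed_of_stable_line
    (N : Submodule (ZMod 3) (Submodule.torsionBy ℤ
      ((W.map (Int.castRingHom ℚ))⁄(AlgebraicClosure ℚ)).Point (3 : ℕ)))
    (hN : Affine.Point.IsGaloisStable ℚ N) (hbot : N ≠ ⊥) (htop : N ≠ ⊤) :
    ∃ (x y : AlgebraicClosure ℚ) (hxy : (EK W).Nonsingular x y),
      (3 : ℤ) • (Point.some x y hxy : (EK W).Point) = 0 ∧
      ∀ σ : AlgebraicClosure ℚ ≃ₐ[ℚ] AlgebraicClosure ℚ, σ x = x := by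
  have h3 : (3 : AlgebraicClosure ℚ) ≠ 0 := by norm_num
  obtain ⟨hfin, hcard⟩ := card_torsion3_le (EK W) h3
  obtain ⟨P, hPN, hP0⟩ := Submodule.exists_mem_ne_zero_of_ne_bot hbot
  obtain ⟨Pv, hPv⟩ := P
  cases Pv with
  | zero => exact absurd rfl hP0
  | some x y hxy =>
    have hP3 : (3 : ℤ) • (Point.some x y hxy : (EK W).Point) = 0 := by
      have := hPv
      rw [Submodule.mem_torsionBy_iff] at this
      simpa using this
    refine ⟨x, y, hxy, hP3, ?_⟩
    intro σ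
    have hσ := hN σ _ hPN
    obtain ⟨h', hs⟩ := smul_some_val W σ hxy
    rcases line_of_card_le_nine hcard N hbot htop hPN hP0 hσ with h0 | h1 | h2
    · exfalso
      have h0' := congrArg Subtype.val h0
      change σ • (Point.some x y hxy : (EK W).Point) = 0 at h0'
      rw [hs] at h0'
      exact Point.some_ne_zero _ h0'
    · have h1' := congrArg Subtype.val h1
      change σ • (Point.some x y hxy : (EK W).Point) = Point.some x y hxy at h1'
      rw [hs, Point.some.injEq] at h1'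
      exact h1'.1
    · have h2' := congrArg Subtype.val h2
      change σ • (Point.some x y hxy : (EK W).Point) = -Point.some x y hxy at h2'
      rw [hs, Point.neg_some, Point.some.injEq] at h2'
      exact h2'.1

end final




section final

variable (W : WeierstrassCurve ℤ)

/-- the curve over `ℚ`. -/
abbrev EQ : WeierstrassCurve ℚ := W.map (Int.castRingHom ℚ)

/-- a Galois-stable line in `E[3]` gives a rational root `r` of `Ψ₃` with `Ψ₂Sq(r) ≠ 0`
(coefficients are the integer `b`-invariants of `W` cast to `ℚ`). -/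
theorem rational_root_of_stable_line
    (N : Submodule (ZMod 3) (Submodule.torsionBy ℤ
      ((W.map (Int.castRingHom ℚ))⁄(AlgebraicClosure ℚ)).Point (3 : ℕ)))
    (hN : Affine.Point.IsGaloisStable ℚ N) (hbot : N ≠ ⊥) (htop : N ≠ ⊤) :
    ∃ r : ℚ, 3 * r ^ 4 + (W.b₂ : ℚ) * r ^ 3 + 3 * (W.b₄ : ℚ) * r ^ 2 + 3 * (W.b₆ : ℚ) * r
        + (W.b₈ : ℚ) = 0 ∧
      4 * r ^ 3 + (W.b₂ : ℚ) * r ^ 2 + 2 * (W.b₄ : ℚ) * r + (W.b₆ : ℚ) ≠ 0 := by
  obtain ⟨x, y, hxy, hP3, hfix⟩ := x_fixed_of_stable_line W N hN hbot htop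
  obtain ⟨r, rfl⟩ := Fermat.Agent.S51.mem_range_of_forall_algEquiv_fixed x hfix
  obtain ⟨hy, hpsi⟩ := psi3_eq_zero_of_three_smul (EK W) hxy hP3
  have hinj : Function.Injective (algebraMap ℚ (AlgebraicClosure ℚ)) :=
    (algebraMap ℚ (AlgebraicClosure ℚ)).injective
  have e2 : (EK W).b₂ = algebraMap ℚ (AlgebraicClosure ℚ) (EQ W).b₂ :=
    WeierstrassCurve.map_b₂ (EQ W) _
  have e4 : (EK W).b₄ = algebraMap ℚ (AlgebraicClosure ℚ) (EQ W).b₄ :=
    WeierstrassCurve.map_b₄ (EQ W) _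
  have e6 : (EK W).b₆ = algebraMap ℚ (AlgebraicClosure ℚ) (EQ W).b₆ :=
    WeierstrassCurve.map_b₆ (EQ W) _
  have e8 : (EK W).b₈ = algebraMap ℚ (AlgebraicClosure ℚ) (EQ W).b₈ :=
    WeierstrassCurve.map_b₈ (EQ W) _
  have q2 : (EQ W).b₂ = (W.b₂ : ℚ) := by rw [WeierstrassCurve.map_b₂]; simp
  have q4 : (EQ W).b₄ = (W.b₄ : ℚ) := by rw [WeierstrassCurve.map_b₄]; simp
  have q6 : (EQ W).b₆ = (W.b₆ : ℚ) := by rw [WeierstrassCurve.map_b₆]; simp
  have q8 : (EQ W).b₈ = (W.b₈ : ℚ) := by rw [WeierstrassCurve.map_b₈]; simp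
  rw [← q2, ← q4, ← q6, ← q8]
  refine ⟨r, ?_, ?_⟩
  · -- Ψ₃(r) = 0 in ℚ
    apply hinj
    rw [map_zero, ← hpsi]
    simp only [psi3, e2, e4, e6, e8, map_add, map_mul, map_pow, map_ofNat]
  · -- D ≠ 0
    intro h0
    have hne := psi2_ne_zero_of_ne_negY (EK W) hy
    apply hne
    have heq := (equation_iff _ _).mp hxy.1
    have h0' := congrArg (algebraMap ℚ (AlgebraicClosure ℚ)) h0
    simp only [map_add, map_mul, map_pow, map_ofNat, map_zero] at h0'
    have hsq : (2 * y + (EK W).a₁ * algebraMap ℚ (AlgebraicClosure ℚ) r + (EK W).a₃) ^ 2 = 0 := by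
      rw [← e2, ← e4, ← e6] at h0'
      simp only [b₂, b₄, b₆] at h0'
      linear_combination h0' + 4 * heq
    exact pow_eq_zero_iff (two_ne_zero) |>.mp hsq

/-- from a rational root of `Ψ₃` with `Ψ₂Sq ≠ 0` to the parameter `h = Δ / Ψ₂Sq(r)²`. -/
theorem param_of_rational_root (hΔ : W.Δ ≠ 0) (r : ℚ)
    (hpsi : 3 * r ^ 4 + (W.b₂ : ℚ) * r ^ 3 + 3 * (W.b₄ : ℚ) * r ^ 2 + 3 * (W.b₆ : ℚ) * r
        + (W.b₈ : ℚ) = 0)
    (hD : 4 * r ^ 3 + (W.b₂ : ℚ) * r ^ 2 + 2 * (W.b₄ : ℚ) * r + (W.b₆ : ℚ) ≠ 0) :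
    ∃ h : ℚ, h ≠ 0 ∧ (W.c₄ : ℚ) ^ 3 * h = (W.Δ : ℚ) * (h + 27) * (h + 3) ^ 3 := by
  have q2 : (EQ W).b₂ = (W.b₂ : ℚ) := by rw [WeierstrassCurve.map_b₂]; simp
  have q4 : (EQ W).b₄ = (W.b₄ : ℚ) := by rw [WeierstrassCurve.map_b₄]; simp
  have q6 : (EQ W).b₆ = (W.b₆ : ℚ) := by rw [WeierstrassCurve.map_b₆]; simp
  have q8 : (EQ W).b₈ = (W.b₈ : ℚ) := by rw [WeierstrassCurve.map_b₈]; simp
  rw [← q2, ← q4, ← q6, ← q8] at hpsi
  rw [← q2, ← q4, ← q6] at hD
  have hrel := three_isog_relation (EQ W) r hpsi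
  have hΔq : (EQ W).Δ = (W.Δ : ℚ) := by
    rw [WeierstrassCurve.map_Δ]; simp
  have hc4q : (EQ W).c₄ = (W.c₄ : ℚ) := by
    rw [WeierstrassCurve.map_c₄]; simp
  have hΔq0 : (EQ W).Δ ≠ 0 := by rw [hΔq]; exact_mod_cast hΔ
  rw [← hΔq, ← hc4q]
  generalize 4 * r ^ 3 + (EQ W).b₂ * r ^ 2 + 2 * (EQ W).b₄ * r + (EQ W).b₆ = D at hD hrel
  refine ⟨(EQ W).Δ / D ^ 2, div_ne_zero hΔq0 (pow_ne_zero 2 hD), ?_⟩
  have hD2 : D ^ 2 ≠ 0 := pow_ne_zero 2 hD
  field_simp
  linear_combination hrel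

/-- **3-side**: a Galois-stable line in `E[3]` gives a rational parameter `h ≠ 0` with
`c₄³ h = Δ (h+27) (h+3)³`, i.e. `j = (h+27)(h+3)³/h`. -/
theorem three_side (hΔ : W.Δ ≠ 0)
    (N : Submodule (ZMod 3) (Submodule.torsionBy ℤ
      ((W.map (Int.castRingHom ℚ))⁄(AlgebraicClosure ℚ)).Point (3 : ℕ)))
    (hN : Affine.Point.IsGaloisStable ℚ N) (hbot : N ≠ ⊥) (htop : N ≠ ⊤) :
    ∃ h : ℚ, h ≠ 0 ∧ (W.c₄ : ℚ) ^ 3 * h = (W.Δ : ℚ) * (h + 27) * (h + 3) ^ 3 := by
  obtain ⟨r, hpsi, hD⟩ := rational_root_of_stable_line W N hN hbot htop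
  exact param_of_rational_root W hΔ r hpsi hD

end final

/-- **Interface (root form, for `Core.lean`)**: if the mod-3 representation is not irreducible,
`Ψ₃` has a rational root `x₀` (at which `Ψ₂Sq` does not vanish). -/
theorem three_side_root_of_not_irr (W : WeierstrassCurve ℤ) (hΔ : W.Δ ≠ 0)
    (h : ¬ W.ModRepIsIrreducible 3) :
    ∃ x₀ : ℚ, 3 * x₀ ^ 4 + (W.b₂ : ℚ) * x₀ ^ 3 + 3 * (W.b₄ : ℚ) * x₀ ^ 2 + 3 * (W.b₆ : ℚ) * x₀
        + (W.b₈ : ℚ) = 0 ∧
      4 * x₀ ^ 3 + (W.b₂ : ℚ) * x₀ ^ 2 + 2 * (W.b₄ : ℚ) * x₀ + (W.b₆ : ℚ) ≠ 0 := by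
  unfold WeierstrassCurve.ModRepIsIrreducible Affine.Point.GaloisRepIsIrreducible at h
  rw [not_and_or] at h
  rcases h with h | h
  · exact absurd (nontrivial_torsion3 W hΔ) h
  · simp only [not_forall, not_or] at h
    obtain ⟨N, hN, hbot, htop⟩ := h
    exact rational_root_of_stable_line W N hN hbot htop

/-- **Interface for the glue**: if the mod-3 representation is not irreducible, the curve has a
rational 3-isogeny parameter `h`. -/
theorem three_side_of_not_irr (W : WeierstrassCurve ℤ) (hΔ : W.Δ ≠ 0)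
    (h : ¬ W.ModRepIsIrreducible 3) :
    ∃ h : ℚ, h ≠ 0 ∧ (W.c₄ : ℚ) ^ 3 * h = (W.Δ : ℚ) * (h + 27) * (h + 3) ^ 3 := by
  unfold WeierstrassCurve.ModRepIsIrreducible Affine.Point.GaloisRepIsIrreducible at h
  rw [not_and_or] at h
  rcases h with h | h
  · exact absurd (nontrivial_torsion3 W hΔ) h
  · simp only [not_forall, not_or] at h
    obtain ⟨N, hN, hbot, htop⟩ := h
    exact three_side W hΔ N hN hbot htop

end Fermat.Agent.S51.Tors3
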