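import Fermat.Statements.S51
import Fermat.Agent.S51.Tors3
import Fermat.Agent.S51.FiveFinal
import Fermat.Agent.S51.Core

/-!
# S51 glue: the frozen statement from the list of rational points of `Y² = X (X-9) (X-25)`

Everything except the descent (D2) is proved: this file reduces `S51` to the single Diophantine
hypothesis `hD2`. Once a theorem `descent15 : ∀ X Y : ℚ, Y^2 = X*(X-9)*(X-25) → Y = 0 ∨ X = 45 ∨ X = 5`
exists, `Fermat.Agent.S51.result` is `Glue.result_of_descent descent15 W hΔ hW`.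
-/

set_option autoImplicit false

namespace Fermat.Agent.S51.Glue

open WeierstrassCurve

/-- `S51` modulo the descent on `Y² = X (X-9) (X-25)`. -/
theorem result_of_descent
    (hD2 : ∀ X Y : ℚ, Y ^ 2 = X * (X - 9) * (X - 25) → Y = 0 ∨ X = 45 ∨ X = 5)
    (W : WeierstrassCurve ℤ) (hΔ : W.Δ ≠ 0) (hW : W.IsSemistableModel) :
    W.ModRepIsIrreducible 3 ∨ W.ModRepIsIrreducible 5 := by
  by_contra hcon
  rw [not_or] at hcon
  obtain ⟨x₀, h3, -⟩ := Fermat.Agent.S51.Tors3.three_side_root_of_not_irr W hΔ hcon.1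
  obtain ⟨r, d, hd, h5a, h5b⟩ := Fermat.Agent.S51.five_side_rd W hΔ hcon.2
  exact Fermat.Agent.S51.core W hΔ hW x₀ r d hd h3 h5a h5b hD2

/-- The same with the points of `y² = x (x+9) (x-16)` (`x = X - 9`). -/
theorem result_of_descent' 
    (hD2 : ∀ x y : ℚ, y ^ 2 = x * (x + 9) * (x - 16) →
      x = 0 ∨ x = -9 ∨ x = 16 ∨ x = 36 ∨ x = -4)
    (W : WeierstrassCurve ℤ) (hΔ : W.Δ ≠ 0) (hW : W.IsSemistableModel) :
    W.ModRepIsIrreducible 3 ∨ W.ModRepIsIrreducible 5 := by
  refine result_of_descent (fun X Y h => ?_) W hΔ hW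
  have h' : Y ^ 2 = (X - 9) * ((X - 9) + 9) * ((X - 9) - 16) := by rw [h]; ring
  rcases hD2 (X - 9) Y h' with h0 | h0 | h0 | h0 | h0
  · left
    have hX : X = 9 := by linarith
    subst hX
    have : Y ^ 2 = 0 := by rw [h]; ring
    exact pow_eq_zero_iff (two_ne_zero) |>.mp this
  · left
    have hX : X = 0 := by linarith
    subst hX
    have : Y ^ 2 = 0 := by rw [h]; ring
    exact pow_eq_zero_iff (two_ne_zero) |>.mp this
  · left
    have hX : X = 25 := by linarith
    subst hX
    have : Y ^ 2 = 0 := by rw [h]; ring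
    exact pow_eq_zero_iff (two_ne_zero) |>.mp this
  · right; left; linarith
  · right; right; linarith

end Fermat.Agent.S51.Glue
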