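import Mathlib

/-!
# S51, part D1: the Diophantine core, reduced to the rational points of `y^2 = x(x+9)(x-16)`

`(h,t)` is a rational point of the singular model `(h+27)(h+3)^3 t = h (t^2+10t+5)^3` of `X_0(15)`.
With `b = (t^2+10t+5)/(h+3)` one gets the model `G(b,t) = (b^3-t)(t^2+10t+5) - 3b^4 - 24bt = 0`,
and `u = P/Q`, `z = S/Q^2` below satisfy `z^2 = u^4-10u^3-13u^2+10u+1`, a quartic model of the same
curve, on which `t` satisfies `u t^2 - (u^2+1)(u^2-9u-1) t + 125 u^3 = 0`.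
-/

namespace Fermat.Agent.S51

/-- The rational points of the Weierstrass model, as a hypothesis. -/
def RatPoints15 : Prop :=
  ∀ x y : ℚ, y ^ 2 = x * (x + 9) * (x - 16) → x = 0 ∨ x = -9 ∨ x = 16 ∨ x = 36 ∨ x = -4

theorem quartic_points (hW : RatPoints15) (u z : ℚ)
    (h : z ^ 2 = u ^ 4 - 10 * u ^ 3 - 13 * u ^ 2 + 10 * u + 1) :
    u = 0 ∨ u = -2 ∨ u = 1 / 2 := by
  have key := hW (-2 * (z - u ^ 2 + 5 * u) - 2)
    (4 * (z - u ^ 2 + 5 * u) * u + 76 * u - 10 * (z - u ^ 2 + 5 * u) - 10)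
    (by linear_combination 4 * (2 * (z - u ^ 2 + 5 * u) + 38) * h)
  rcases key with k | k | k | k | k
  · -- x = 0, p = -1
    have hz : z = u ^ 2 - 5 * u - 1 := by linarith
    subst hz
    have : u ^ 2 = 0 := by nlinarith
    left; exact pow_eq_zero_iff (two_ne_zero) |>.mp this
  · -- x = -9, p = 7/2
    have hz : z = u ^ 2 - 5 * u + 7 / 2 := by linarith
    subst hz
    have : (u - 1 / 2) ^ 2 = 0 := by nlinarith
    right; right
    have := pow_eq_zero_iff (two_ne_zero) |>.mp this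
    linarith
  · -- x = 16, p = -9
    have hz : z = u ^ 2 - 5 * u - 9 := by linarith
    subst hz
    have : (u + 2) ^ 2 = 0 := by nlinarith
    right; left
    have := pow_eq_zero_iff (two_ne_zero) |>.mp this
    linarith
  · -- x = 36, p = -19
    have hz : z = u ^ 2 - 5 * u - 19 := by linarith
    subst hz
    right; left
    nlinarith
  · -- x = -4, p = 1
    have hz : z = u ^ 2 - 5 * u + 1 := by linarith
    subst hz
    have : u * (2 * u - 1) = 0 := by nlinarith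
    rcases mul_eq_zero.mp this with h0 | h0
    · left; exact h0
    · right; right; linarith

theorem rat_sq_ne_five (q : ℚ) : q ^ 2 ≠ 5 := by
  intro hq
  have h5 : IsSquare (5 : ℚ) := ⟨q, by rw [← hq]; ring⟩
  rw [Rat.isSquare_iff] at h5
  obtain ⟨⟨r, hr⟩, -⟩ := h5
  have hr' : r * r = 5 := by simpa using hr.symm
  have h1 : r.natAbs * r.natAbs = 5 := by
    have := congrArg Int.natAbs hr'
    simpa [Int.natAbs_mul] using this
  have h2 : r.natAbs ≤ 2 := by nlinarith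
  interval_cases r.natAbs <;> omega

theorem core_of_ratPoints (hW : RatPoints15) (h t : ℚ) (_hh : h ≠ 0) (ht : t ≠ 0)
    (hF : (h + 27) * (h + 3) ^ 3 * t = h * (t ^ 2 + 10 * t + 5) ^ 3) :
    t = -10 ∨ t = -40 ∨ t = -25 / 2 ∨ t = -25 / 8 := by
  have hT10 : t ^ 2 + 10 * t + 5 ≠ 0 := by
    intro h0
    exact rat_sq_ne_five ((t + 5) / 2) (by linear_combination h0 / 4)
  have hT2 : t ^ 2 + 4 * t - 1 ≠ 0 := by
    intro h0
    exact rat_sq_ne_five (t + 2) (by linear_combination h0)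
  have hh3 : h + 3 ≠ 0 := by
    intro h0
    have h3 : h = -3 := by linarith
    rw [h3] at hF
    have : (t ^ 2 + 10 * t + 5) ^ 3 = 0 := by linarith
    exact hT10 (pow_eq_zero_iff (by norm_num) |>.mp this)
  obtain ⟨b, hb⟩ : ∃ b : ℚ, b = (t ^ 2 + 10 * t + 5) / (h + 3) := ⟨_, rfl⟩
  have hb0 : b ≠ 0 := by rw [hb]; exact div_ne_zero hT10 hh3
  have hbT : b * (h + 3) = t ^ 2 + 10 * t + 5 := by rw [hb]; field_simp
  have hG : (b ^ 3 - t) * (t ^ 2 + 10 * t + 5) - 3 * b ^ 4 - 24 * b * t = 0 := by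
    have h1 : (h + 3) ^ 4 * ((b ^ 3 - t) * (t ^ 2 + 10 * t + 5) - 3 * b ^ 4 - 24 * b * t) = 0 := by
      have e : (h + 3) ^ 4 * ((b ^ 3 - t) * (t ^ 2 + 10 * t + 5) - 3 * b ^ 4 - 24 * b * t)
          = (b * (h + 3)) ^ 3 * (h + 3) * (t ^ 2 + 10 * t + 5) - t * (h + 3) ^ 4 * (t ^ 2 + 10 * t + 5)
            - 3 * (b * (h + 3)) ^ 4 - 24 * (b * (h + 3)) * t * (h + 3) ^ 3 := by ring
      rw [e, hbT]
      linear_combination (-(t ^ 2 + 10 * t + 5)) * hF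
    rcases mul_eq_zero.mp h1 with h2 | h2
    · exact absurd (pow_eq_zero_iff (by norm_num) |>.mp h2) hh3
    · exact h2
  -- the rational map to the quartic model
  set P : ℚ := b * (t ^ 2 + 4 * t - 1) with hP
  set Q : ℚ := t ^ 2 + 10 * t + 5 + 12 * b - 3 * b ^ 2 * (t + 3) with hQ
  set S : ℚ := (25 - 65 * t - 190 * t ^ 2 + 62 * t ^ 3 + 37 * t ^ 4 + 3 * t ^ 5)
      + b * (95 - 502 * t + 388 * t ^ 2 + 142 * t ^ 3 + 5 * t ^ 4)
      + b ^ 2 * (-25 + 128 * t - 86 * t ^ 2 - 32 * t ^ 3 - t ^ 4)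
      + b ^ 3 * (-24 + 117 * t - 57 * t ^ 2 - 33 * t ^ 3 - 3 * t ^ 4) with hS
  have c2 : P * Q ^ 3 * t ^ 2 - (P ^ 2 + Q ^ 2) * (P ^ 2 - 9 * P * Q - Q ^ 2) * t + 125 * P ^ 3 * Q = 0 := by
    rw [hP, hQ]
    linear_combination (-27*b^4*t^5 - 324*b^4*t^4 - 1458*b^4*t^3 - 2916*b^4*t^2 - 2187*b^4*t + 216*b^3*t^4 + 1944*b^3*t^3 + 5832*b^3*t^2 + 5832*b^3*t - b*t^7 - 33*b*t^6 - 405*b*t^5 - 2245*b*t^4 - 5475*b*t^3 - 5475*b*t^2 - 2375*b*t - 375*b - t^6 - 30*t^5 - 315*t^4 - 1300*t^3 - 1575*t^2 - 750*t - 125) * hG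
  have c3 : S ^ 2 = P ^ 4 - 10 * P ^ 3 * Q - 13 * P ^ 2 * Q ^ 2 + 10 * P * Q ^ 3 + Q ^ 4 := by
    rw [hP, hQ, hS]
    linear_combination (27*b^4*t^4 + 324*b^4*t^3 + 1458*b^4*t^2 + 2916*b^4*t + 2187*b^4 + 9*b^3*t^6 + 108*b^3*t^5 + 441*b^3*t^4 + 360*b^3*t^3 - 2349*b^3*t^2 - 6804*b^3*t - 5589*b^3 + 6*b^2*t^6 + 168*b^2*t^5 + 222*b^2*t^4 - 4944*b^2*t^3 - 12174*b^2*t^2 + 7848*b^2*t - 1110*b^2 - 30*b*t^6 - 696*b*t^5 - 2838*b*t^4 + 3840*b*t^3 + 21558*b*t^2 - 8136*b*t + 6270*b - 9*t^7 - 132*t^6 - 375*t^5 + 1002*t^4 + 3081*t^3 - 3000*t^2 + 855*t + 1650) * hG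
  have hP0 : P ≠ 0 := mul_ne_zero hb0 hT2
  have hQ0 : Q ≠ 0 := by
    intro h0
    rw [h0] at c2
    have : P ^ 4 * t = 0 := by linear_combination -c2
    rcases mul_eq_zero.mp this with h1 | h1
    · exact hP0 (pow_eq_zero_iff (by norm_num) |>.mp h1)
    · exact ht h1
  have hz : (S / Q ^ 2) ^ 2 = (P / Q) ^ 4 - 10 * (P / Q) ^ 3 - 13 * (P / Q) ^ 2 + 10 * (P / Q) + 1 := by
    field_simp
    linear_combination c3
  have hΦ : (P / Q) * t ^ 2 - ((P / Q) ^ 2 + 1) * ((P / Q) ^ 2 - 9 * (P / Q) - 1) * t + 125 * (P / Q) ^ 3 = 0 := by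
    field_simp
    linear_combination c2
  rcases quartic_points hW (P / Q) (S / Q ^ 2) hz with hu | hu | hu
  · exact absurd hu (div_ne_zero hP0 hQ0)
  · rw [hu] at hΦ
    have : (2 * t + 25) * (t + 40) = 0 := by linear_combination -hΦ
    rcases mul_eq_zero.mp this with h1 | h1
    · right; right; left; linarith
    · right; left; linarith
  · rw [hu] at hΦ
    have : (8 * t + 25) * (t + 10) = 0 := by linear_combination 16 * hΦ
    rcases mul_eq_zero.mp this with h1 | h1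
    · right; right; right; linarith
    · left; linarith

end Fermat.Agent.S51
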