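import Mathlib
import Fermat.Prelude.Def_FLTPrelim_Modularity

/-!
# S51 endgame: the four exceptional `j`-invariants are not semistable at `5`

`j ∈ {-25/2, -349938025/8, -121945/32, 46969655/32768}` (numerators `5²`, `5²·241³`, `5·29³`,
`5·211³`) contradicts `j = c₄³/Δ` with `5 ∣ Δ → ¬ 5 ∣ c₄`.
-/

set_option autoImplicit false

namespace Fermat.Agent.S51.Endgame

/-- `A c³ = B Δ`, `5 ∤ A`, `5 ∣ B`, `125 ∤ B` forces `5 ∣ c` and `5 ∣ Δ`. -/
lemma five_dvd_both {A B c Δ : ℤ} (h : A * c ^ 3 = B * Δ) (hA : ¬ (5 : ℤ) ∣ A)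
    (hB : (5 : ℤ) ∣ B) (hB' : ¬ (125 : ℤ) ∣ B) : (5 : ℤ) ∣ c ∧ (5 : ℤ) ∣ Δ := by
  have h5 : Prime (5 : ℤ) := Int.prime_iff_natAbs_prime.mpr (by norm_num)
  have hc : (5 : ℤ) ∣ c := by
    have h1 : (5 : ℤ) ∣ A * c ^ 3 := by rw [h]; exact Dvd.dvd.mul_right hB Δ
    rcases h5.dvd_or_dvd h1 with h2 | h2
    · exact absurd h2 hA
    · exact h5.dvd_of_dvd_pow h2
  refine ⟨hc, ?_⟩
  by_contra hΔ
  apply hB'
  have hcop : IsCoprime ((5 : ℤ) ^ 3) Δ := ((Prime.coprime_iff_not_dvd h5).mpr hΔ).pow_left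
  have h125 : (5 : ℤ) ^ 3 ∣ B * Δ := by
    rw [← h]
    exact Dvd.dvd.mul_left (pow_dvd_pow_of_dvd hc 3) A
  have := hcop.dvd_of_dvd_mul_right h125
  norm_num at this
  exact this

/-- Endgame in the `j`-shape. -/
theorem semistable_endgame (W : WeierstrassCurve ℤ) (_hΔ : W.Δ ≠ 0) (hW : W.IsSemistableModel)
    (j : ℚ) (hj : (W.c₄ : ℚ) ^ 3 = j * (W.Δ : ℚ))
    (hmem : j = -25 / 2 ∨ j = -349938025 / 8 ∨ j = -121945 / 32 ∨ j = 46969655 / 32768) :
    False := by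
  have key : (5 : ℤ) ∣ W.c₄ ∧ (5 : ℤ) ∣ W.Δ := by
    rcases hmem with rfl | rfl | rfl | rfl
    · have h : (2 : ℤ) * W.c₄ ^ 3 = (-25) * W.Δ := by
        have : (2 : ℚ) * (W.c₄ : ℚ) ^ 3 = (-25) * (W.Δ : ℚ) := by rw [hj]; ring
        exact_mod_cast this
      exact five_dvd_both h (by norm_num) (by norm_num) (by norm_num)
    · have h : (8 : ℤ) * W.c₄ ^ 3 = (-349938025) * W.Δ := by
        have : (8 : ℚ) * (W.c₄ : ℚ) ^ 3 = (-349938025) * (W.Δ : ℚ) := by rw [hj]; ring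
        exact_mod_cast this
      exact five_dvd_both h (by norm_num) (by norm_num) (by norm_num)
    · have h : (32 : ℤ) * W.c₄ ^ 3 = (-121945) * W.Δ := by
        have : (32 : ℚ) * (W.c₄ : ℚ) ^ 3 = (-121945) * (W.Δ : ℚ) := by rw [hj]; ring
        exact_mod_cast this
      exact five_dvd_both h (by norm_num) (by norm_num) (by norm_num)
    · have h : (32768 : ℤ) * W.c₄ ^ 3 = (46969655) * W.Δ := by
        have : (32768 : ℚ) * (W.c₄ : ℚ) ^ 3 = (46969655) * (W.Δ : ℚ) := by rw [hj]; ring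
        exact_mod_cast this
      exact five_dvd_both h (by norm_num) (by norm_num) (by norm_num)
  exact hW 5 (by norm_num) (by exact_mod_cast key.2) (by exact_mod_cast key.1)

/-- Endgame in the `t`-shape (`t` = the level-5 Hauptmodul value, `j = (t²+10t+5)³/t`). -/
theorem endgame (c4 Δ : ℤ) (_hΔ : Δ ≠ 0)
    (hss : ∀ p : ℕ, p.Prime → (p : ℤ) ∣ Δ → ¬ (p : ℤ) ∣ c4) (t : ℚ)
    (ht : t = -10 ∨ t = -40 ∨ t = -25 / 2 ∨ t = -25 / 8)
    (hj : (c4 : ℚ) ^ 3 * t = (Δ : ℚ) * (t ^ 2 + 10 * t + 5) ^ 3) : False := by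
  have key : (5 : ℤ) ∣ c4 ∧ (5 : ℤ) ∣ Δ := by
    rcases ht with rfl | rfl | rfl | rfl
    · have h : (2 : ℤ) * c4 ^ 3 = (-25) * Δ := by
        have : (2 : ℚ) * (c4 : ℚ) ^ 3 = (-25) * (Δ : ℚ) := by linear_combination (-1 / 5 : ℚ) * hj
        exact_mod_cast this
      exact five_dvd_both h (by norm_num) (by norm_num) (by norm_num)
    · have h : (8 : ℤ) * c4 ^ 3 = (-349938025) * Δ := by
        have : (8 : ℚ) * (c4 : ℚ) ^ 3 = (-349938025) * (Δ : ℚ) := by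
          linear_combination (-1 / 5 : ℚ) * hj
        exact_mod_cast this
      exact five_dvd_both h (by norm_num) (by norm_num) (by norm_num)
    · have h : (32 : ℤ) * c4 ^ 3 = (-121945) * Δ := by
        have : (32 : ℚ) * (c4 : ℚ) ^ 3 = (-121945) * (Δ : ℚ) := by
          linear_combination (-64 / 25 : ℚ) * hj
        exact_mod_cast this
      exact five_dvd_both h (by norm_num) (by norm_num) (by norm_num)
    · have h : (32768 : ℤ) * c4 ^ 3 = (46969655) * Δ := by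
        have : (32768 : ℚ) * (c4 : ℚ) ^ 3 = (46969655) * (Δ : ℚ) := by
          linear_combination (-262144 / 25 : ℚ) * hj
        exact_mod_cast this
      exact five_dvd_both h (by norm_num) (by norm_num) (by norm_num)
  exact hss 5 (by norm_num) key.2 key.1

end Fermat.Agent.S51.Endgame
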