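/-
S51, bridge lemma for the 5-side (helper93).

From the `x`-coordinates `x₁ = x(P)`, `x₂ = x(2P)` of the nonzero points of a Galois-stable
subgroup of order 5 (over a field `K ⊇ ℚ`), with `x₁ + x₂` and `(x₁ - x₂)^2` rational, and the two
duplication relations `Φ₂(x₁) = x₂ Ψ₂Sq(x₁)`, `Φ₂(x₂) = x₁ Ψ₂Sq(x₂)`, we derive the rational data
`(r, d)` consumed by `Fermat.Agent.S51.core`.
-/
import Mathlib.Tactic

set_option autoImplicit false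

namespace Fermat.Agent.S51

theorem five_alg {K : Type*} [Field K] (φ : ℚ →+* K) (b₂ b₄ b₆ b₈ : ℚ) (x₁ x₂ : K)
    (hne : x₁ ≠ x₂)
    (h1 : x₁ ^ 4 - φ b₄ * x₁ ^ 2 - 2 * φ b₆ * x₁ - φ b₈
      = x₂ * (4 * x₁ ^ 3 + φ b₂ * x₁ ^ 2 + 2 * φ b₄ * x₁ + φ b₆))
    (h2 : x₂ ^ 4 - φ b₄ * x₂ ^ 2 - 2 * φ b₆ * x₂ - φ b₈
      = x₁ * (4 * x₂ ^ 3 + φ b₂ * x₂ ^ 2 + 2 * φ b₄ * x₂ + φ b₆))
    (s q : ℚ) (hs : x₁ + x₂ = φ s) (hq : (x₁ - x₂) ^ 2 = φ q) :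
    ∃ r d : ℚ, d ≠ 0 ∧
      b₆ + 2 * r * b₄ + r ^ 2 * b₂ + 4 * r ^ 3 = (b₂ + 12 * r) * d ∧
      b₈ + 3 * r * b₆ + 3 * r ^ 2 * b₄ + r ^ 3 * b₂ + 3 * r ^ 4
        = 5 * d ^ 2 + (b₄ + r * b₂ + 6 * r ^ 2) * d := by
  have hinj : Function.Injective φ := φ.injective
  have h2K : (2 : K) ≠ 0 := by
    have : φ 2 ≠ 0 := by
      rw [Ne, map_eq_zero]; norm_num
    simpa using this
  have h4K : (4 : K) ≠ 0 := by
    have : (4 : K) = 2 * 2 := by norm_num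
    rw [this]; exact mul_ne_zero h2K h2K
  refine ⟨s / 2, q / 4, ?_, ?_, ?_⟩
  · -- d ≠ 0
    intro hd
    have hq0 : q = 0 := by linarith
    rw [hq0, map_zero] at hq
    exact hne (sub_eq_zero.mp (pow_eq_zero_iff two_ne_zero |>.mp hq))
  all_goals
    obtain ⟨e, he⟩ : ∃ e : K, e = (x₁ - x₂) / 2 := ⟨_, rfl⟩
    obtain ⟨R, hR⟩ : ∃ R : K, R = φ (s / 2) := ⟨_, rfl⟩
    obtain ⟨D, hD⟩ : ∃ D : K, D = φ (q / 4) := ⟨_, rfl⟩
    have hR' : R = (x₁ + x₂) / 2 := by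
      rw [hR, map_div₀, ← hs]; simp
    have hD' : D = e ^ 2 := by
      rw [hD, map_div₀, ← hq, he]
      have : φ 4 = 4 := by simp
      rw [this]; field_simp; ring
    have hx1 : x₁ = R + e := by rw [hR', he]; field_simp; ring
    have hx2 : x₂ = R - e := by rw [hR', he]; field_simp; ring
    have he0 : e ≠ 0 := by
      rw [he]; intro h
      rcases div_eq_zero_iff.mp h with h | h
      · exact hne (sub_eq_zero.mp h)
      · exact h2K h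
    have T1 : 5 * e ^ 4 + (φ b₂ + 12 * R) * e ^ 3 + (φ b₄ + R * φ b₂ + 6 * R ^ 2) * e ^ 2
        - (φ b₆ + 2 * R * φ b₄ + R ^ 2 * φ b₂ + 4 * R ^ 3) * e
        - (φ b₈ + 3 * R * φ b₆ + 3 * R ^ 2 * φ b₄ + R ^ 3 * φ b₂ + 3 * R ^ 4) = 0 := by
      rw [hx1, hx2] at h1
      linear_combination h1
    have T2 : 5 * e ^ 4 - (φ b₂ + 12 * R) * e ^ 3 + (φ b₄ + R * φ b₂ + 6 * R ^ 2) * e ^ 2
        + (φ b₆ + 2 * R * φ b₄ + R ^ 2 * φ b₂ + 4 * R ^ 3) * e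
        - (φ b₈ + 3 * R * φ b₆ + 3 * R ^ 2 * φ b₄ + R ^ 3 * φ b₂ + 3 * R ^ 4) = 0 := by
      rw [hx1, hx2] at h2
      linear_combination h2
    have hA : 2 * (5 * D ^ 2 + (φ b₄ + R * φ b₂ + 6 * R ^ 2) * D
        - (φ b₈ + 3 * R * φ b₆ + 3 * R ^ 2 * φ b₄ + R ^ 3 * φ b₂ + 3 * R ^ 4)) = 0 := by
      rw [hD']; linear_combination T1 + T2
    have hB : (2 * e) * ((φ b₂ + 12 * R) * D
        - (φ b₆ + 2 * R * φ b₄ + R ^ 2 * φ b₂ + 4 * R ^ 3)) = 0 := by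
      rw [hD']; linear_combination T1 - T2
    have hA' := (mul_eq_zero.mp hA).resolve_left h2K
    have hB' := (mul_eq_zero.mp hB).resolve_left (mul_ne_zero h2K he0)
  · -- h5a
    apply hinj
    have : φ (b₆ + 2 * (s / 2) * b₄ + (s / 2) ^ 2 * b₂ + 4 * (s / 2) ^ 3)
        - φ ((b₂ + 12 * (s / 2)) * (q / 4)) = 0 := by
      simp only [map_add, map_mul, map_pow, map_ofNat, ← hR, ← hD]
      linear_combination (-1 : K) * hB'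
    exact sub_eq_zero.mp this
  · -- h5b
    apply hinj
    have : φ (b₈ + 3 * (s / 2) * b₆ + 3 * (s / 2) ^ 2 * b₄ + (s / 2) ^ 3 * b₂ + 3 * (s / 2) ^ 4)
        - φ (5 * (q / 4) ^ 2 + (b₄ + (s / 2) * b₂ + 6 * (s / 2) ^ 2) * (q / 4)) = 0 := by
      simp only [map_add, map_mul, map_pow, map_ofNat, ← hR, ← hD]
      linear_combination (-1 : K) * hA'
    exact sub_eq_zero.mp this

end Fermat.Agent.S51
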