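/-
S51, the 3-isogeny side: if the mod-3 representation of an integral Weierstrass curve with
nonzero discriminant is reducible, then there is a rational number `h ≠ 0` with
`c₄ ^ 3 * h = Δ * (h + 27) * (h + 3) ^ 3`, i.e. `j = (h + 27) (h + 3) ^ 3 / h`.
-/
import Mathlib
import Fermat.Prelude.Def_FLTPrelim_ModularRep
import Fermat.Agent.S51.GalFixed
import Fermat.Agent.S51.LineLemma

set_option autoImplicit false

namespace Fermat.Agent.S51.Three

/-! ### Part a -/

section Part_a


open WeierstrassCurve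

variable {R : Type*} [CommRing R] (W : WeierstrassCurve R)

/-- The value of the 3-division polynomial at `x`. -/
def psi3 (x : R) : R := 3 * x ^ 4 + W.b₂ * x ^ 3 + 3 * W.b₄ * x ^ 2 + 3 * W.b₆ * x + W.b₈

/-- The value of `ψ₂²` at `x`. -/
def psi2sq (x : R) : R := 4 * x ^ 3 + W.b₂ * x ^ 2 + 2 * W.b₄ * x + W.b₆

/-- Half of the derivative of `psi2sq`, the translated `b₄`. -/
def bfour (x : R) : R := 6 * x ^ 2 + W.b₂ * x + W.b₄

lemma sixteen_psi3 (x : R) :
    16 * psi3 W x = 2 * psi2sq W x * (24 * x + 2 * W.b₂) - (2 * bfour W x) ^ 2 := by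
  simp only [psi3, psi2sq, bfour, b₂, b₄, b₆, b₈]
  ring

lemma disc_identity (x : R) :
    -288 * W.Δ = -36 * (12 * (24 * W.b₄ - W.b₂ ^ 2) * x - 12 * (18 * W.b₆ - W.b₂ * W.b₄)
        + 2 * W.b₂ * (24 * W.b₄ - W.b₂ ^ 2)) * psi2sq W x
      + (2 * (24 * W.b₄ - W.b₂ ^ 2) ^ 2 + (12 * (24 * W.b₄ - W.b₂ ^ 2) * x
        - 12 * (18 * W.b₆ - W.b₂ * W.b₄) + 2 * W.b₂ * (24 * W.b₄ - W.b₂ ^ 2)) * (12 * x + W.b₂))
        * (2 * bfour W x) := by
  simp only [psi2sq, bfour, WeierstrassCurve.Δ, b₂, b₄, b₆, b₈]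
  ring

/-- Key identities: at a root of `psi3`. -/
lemma bfour_cube (x : R) :
    bfour W x ^ 3 = W.Δ + 27 * psi2sq W x ^ 2
      - (36 * bfour W x - (W.b₂ + 12 * x) ^ 2) * psi3 W x := by
  simp only [psi3, psi2sq, bfour, WeierstrassCurve.Δ, b₂, b₄, b₆, b₈]
  ring

lemma c4_psi2sq_sq (x : R) :
    W.c₄ * psi2sq W x ^ 2 = bfour W x * (W.Δ + 3 * psi2sq W x ^ 2)
      + (16 * psi3 W x - 28 * bfour W x ^ 2 + bfour W x * (W.b₂ + 12 * x) ^ 2) * psi3 W x := by
  simp only [psi3, psi2sq, bfour, WeierstrassCurve.Δ, WeierstrassCurve.c₄, b₂, b₄, b₆, b₈]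
  ring


end Part_a

/-! ### Part b -/

section Part_b


open WeierstrassCurve

variable {K : Type*} [Field K] (W : WeierstrassCurve.Affine K)

lemma psi2_sq_eq {x y : K} (h : W.Equation x y) :
    (y - W.negY x y) ^ 2 = psi2sq W x := by
  rw [Affine.equation_iff] at h
  simp only [Affine.negY, psi2sq, b₂, b₄, b₆]
  linear_combination 4 * h

lemma dup_key {x y : K} (h : W.Equation x y) :
    (3 * x ^ 2 + 2 * W.a₂ * x + W.a₄ - W.a₁ * y) ^ 2
      + W.a₁ * (3 * x ^ 2 + 2 * W.a₂ * x + W.a₄ - W.a₁ * y) * (y - W.negY x y)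
      - (W.a₂ + 3 * x) * (y - W.negY x y) ^ 2 = - psi3 W x := by
  rw [Affine.equation_iff] at h
  simp only [Affine.negY, psi3, b₂, b₄, b₆, b₈]
  linear_combination (-(12 * x + W.a₁ ^ 2 + 4 * W.a₂)) * h

variable [DecidableEq K]

lemma dup_x {x y : K} (h : W.Equation x y) (hy : y ≠ W.negY x y) :
    (W.addX x x (W.slope x x y y) - x) * psi2sq W x = - psi3 W x := by
  have hne : y - W.negY x y ≠ 0 := sub_ne_zero.2 hy
  rw [Affine.slope_of_Y_ne rfl hy, ← psi2_sq_eq W h, ← dup_key W h]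
  simp only [Affine.addX]
  field_simp
  ring


end Part_b

/-! ### Part c -/

section Part_c


open WeierstrassCurve Polynomial

variable {K : Type*} [Field K] (W : WeierstrassCurve.Affine K)

lemma eval_Ψ₃ (x : K) : (WeierstrassCurve.Ψ₃ W).eval x = psi3 W x := by
  simp [WeierstrassCurve.Ψ₃, psi3]

/-- If `psi2sq` and `psi3` vanish at the same point then `Δ = 0` (characteristic not 2 or 3). -/
lemma Δ_eq_zero_of_psi2sq_psi3 (h2 : (2 : K) ≠ 0) (h3 : (3 : K) ≠ 0) {x : K}
    (ha : psi2sq W x = 0) (hb : psi3 W x = 0) : W.Δ = 0 := by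
  have h1 := sixteen_psi3 W x
  rw [ha, hb] at h1
  have h4 : bfour W x = 0 := by
    have : (2 * bfour W x) ^ 2 = 0 := by linear_combination h1
    have := (pow_eq_zero_iff (two_ne_zero)).1 this
    exact (mul_eq_zero.1 this).resolve_left h2
  have h5 := disc_identity W x
  rw [ha, h4] at h5
  have h6 : (288 : K) ≠ 0 := by
    have : (288 : K) = 2 ^ 5 * 3 ^ 2 := by norm_num
    rw [this]
    exact mul_ne_zero (pow_ne_zero _ h2) (pow_ne_zero _ h3)
  have h7 : (288 : K) * W.Δ = 0 := by linear_combination -h5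
  exact (mul_eq_zero.1 h7).resolve_left h6

variable [DecidableEq K]

open WeierstrassCurve.Affine WeierstrassCurve.Affine.Point

lemma three_nsmul_eq (P : W.Point) : (3 : ℕ) • P = P + P + P := by
  rw [show (3 : ℕ) = 2 + 1 from rfl, add_nsmul, two_nsmul, one_nsmul]

/-- A nonzero point killed by `3` has `x`-coordinate a root of `psi3`. -/
lemma psi3_eq_zero_of_three_nsmul {x y : K} (h : W.Nonsingular x y)
    (h3 : (3 : ℕ) • (Point.some x y h) = 0) : psi3 W x = 0 := by
  rw [three_nsmul_eq, add_eq_zero_iff_eq_neg] at h3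
  by_cases hy : y = W.negY x y
  · rw [add_self_of_Y_eq hy] at h3
    have h4 : Point.some x y h = 0 := by
      rw [← neg_neg (Point.some x y h), ← h3]; rfl
    exact absurd h4 (some_ne_zero h)
  · rw [add_self_of_Y_ne hy, neg_some] at h3
    have hx : W.addX x x (W.slope x x y y) = x := by
      injection h3
    have := dup_x W h.1 hy
    rw [hx, sub_self, zero_mul] at this
    exact neg_eq_zero.1 this.symm

/-- Conversely a point whose `x`-coordinate is a root of `psi3` is killed by `3`. -/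
lemma three_nsmul_of_psi3_eq_zero (h2 : (2 : K) ≠ 0) (h3 : (3 : K) ≠ 0) (hΔ : W.Δ ≠ 0)
    {x y : K} (h : W.Nonsingular x y) (hx : psi3 W x = 0) :
    (3 : ℕ) • (Point.some x y h) = 0 := by
  have hpsi2 : psi2sq W x ≠ 0 := fun h0 => hΔ (Δ_eq_zero_of_psi2sq_psi3 W h2 h3 h0 hx)
  have hy : y ≠ W.negY x y := by
    intro hy
    apply hpsi2
    rw [← psi2_sq_eq W h.1, ← hy, sub_self, zero_pow two_ne_zero]
  rw [three_nsmul_eq, add_eq_zero_iff_eq_neg, add_self_of_Y_ne hy]
  have hX : W.addX x x (W.slope x x y y) = x := by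
    have := dup_x W h.1 hy
    rw [hx, _root_.neg_zero] at this
    have := (mul_eq_zero.1 this).resolve_right hpsi2
    exact sub_eq_zero.1 this
  rcases (X_eq_iff (h₁ := nonsingular_add h h fun hxy => hy hxy.right) (h₂ := h)).1 hX with h' | h'
  · exfalso
    have hadd := add_self_of_Y_ne (h₁ := h) hy
    rw [← hadd] at h'
    have : Point.some x y h = 0 := by
      have := congrArg (fun Q => Q - Point.some x y h) h'
      simpa using this
    exact some_ne_zero h this
  · exact h'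


end Part_c

/-! ### Part d -/

section Part_d


open WeierstrassCurve Polynomial

variable {K : Type*} [Field K] (W : WeierstrassCurve.Affine K)

/-- The Weierstrass equation at fixed `x`, as a polynomial in `y`. -/
noncomputable def ypoly (x : K) : K[X] :=
  X ^ 2 + C (W.a₁ * x + W.a₃) * X - C (x ^ 3 + W.a₂ * x ^ 2 + W.a₄ * x + W.a₆)

lemma ypoly_natDegree (x : K) : (ypoly W x).natDegree = 2 := by
  unfold ypoly
  compute_degree!

lemma ypoly_ne_zero (x : K) : ypoly W x ≠ 0 := by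
  intro h
  have := ypoly_natDegree W x
  rw [h] at this
  simp at this

lemma ypoly_eval (x y : K) : (ypoly W x).eval y = 0 ↔ W.Equation x y := by
  rw [Affine.equation_iff]
  simp only [ypoly, eval_sub, eval_add, eval_pow, eval_X, eval_mul, eval_C]
  constructor
  · intro h; linear_combination h
  · intro h; linear_combination h

open WeierstrassCurve.Affine WeierstrassCurve.Affine.Point

/-- The coordinates of a point. -/
def coords : W.Point → Option (K × K)
  | .zero => none
  | .some x y _ => some (x, y)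

lemma coords_injective : Function.Injective (coords W) := by
  rintro (_ | ⟨x₁, y₁, h₁⟩) (_ | ⟨x₂, y₂, h₂⟩) h
  · rfl
  · simp [coords] at h
  · simp [coords] at h
  · simp only [coords, Option.some.injEq, Prod.mk.injEq] at h
    obtain ⟨rfl, rfl⟩ := h
    rfl

variable [DecidableEq K]

/-- The finite set of candidate coordinates of nonzero `3`-torsion points. -/
noncomputable def cand : Finset (Option (K × K)) :=
  insert none (((WeierstrassCurve.Ψ₃ W).roots.toFinset.biUnion
    (fun x => (ypoly W x).roots.toFinset.image (fun y => (x, y)))).image some)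

lemma card_cand_le (h3 : (3 : K) ≠ 0) : (cand W).card ≤ 9 := by
  unfold cand
  refine (Finset.card_insert_le _ _).trans ?_
  refine Nat.succ_le_succ (Finset.card_image_le.trans ?_)
  refine (Finset.card_biUnion_le_card_mul _ _ 2 ?_).trans ?_
  · intro x _
    refine Finset.card_image_le.trans ?_
    refine (Multiset.toFinset_card_le _).trans ?_
    exact (card_roots' _).trans (ypoly_natDegree W x).le
  · have : (WeierstrassCurve.Ψ₃ W).roots.toFinset.card ≤ 4 := by
      refine (Multiset.toFinset_card_le _).trans ?_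
      exact (card_roots' _).trans (WeierstrassCurve.natDegree_Ψ₃_le W)
    omega

lemma coords_mem_cand (h3 : (3 : K) ≠ 0) (P : W.Point) (hP : (3 : ℕ) • P = 0) :
    coords W P ∈ cand W := by
  rcases P with _ | ⟨x, y, h⟩
  · simp [coords, cand]
  · have hx := psi3_eq_zero_of_three_nsmul W h hP
    simp only [coords, cand, Finset.mem_insert, Finset.mem_image, Finset.mem_biUnion,
      Multiset.mem_toFinset, reduceCtorEq, false_or]
    refine ⟨(x, y), ⟨x, ?_, y, ?_, rfl⟩, rfl⟩
    · rw [mem_roots (WeierstrassCurve.Ψ₃_ne_zero W h3), IsRoot, eval_Ψ₃]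
      exact hx
    · rw [mem_roots (ypoly_ne_zero W x), IsRoot, ypoly_eval]
      exact h.1


end Part_d

/-! ### Part e -/

section Part_e


open WeierstrassCurve Polynomial
open WeierstrassCurve.Affine WeierstrassCurve.Affine.Point

section generic

variable {K : Type*} [Field K] [DecidableEq K] (W : WeierstrassCurve.Affine K)

lemma mem_torsionBy_three_iff (P : W.Point) :
    P ∈ Submodule.torsionBy ℤ W.Point ((3 : ℕ) : ℤ) ↔ (3 : ℕ) • P = 0 := by
  rw [Submodule.mem_torsionBy_iff, natCast_zsmul]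

/-- The `3`-torsion is finite with at most `9` elements. -/
lemma finite_torsion_three (h3 : (3 : K) ≠ 0) :
    Finite (Submodule.torsionBy ℤ W.Point ((3 : ℕ) : ℤ)) ∧
      Nat.card (Submodule.torsionBy ℤ W.Point ((3 : ℕ) : ℤ)) ≤ 9 := by
  let f : Submodule.torsionBy ℤ W.Point ((3 : ℕ) : ℤ) → cand W := fun P =>
    ⟨coords W P.1, coords_mem_cand W h3 P.1 ((mem_torsionBy_three_iff W P.1).1 P.2)⟩
  have hf : Function.Injective f := by
    intro P Q h
    have := congrArg Subtype.val h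
    exact Subtype.ext (coords_injective W this)
  have hfin : Finite (Submodule.torsionBy ℤ W.Point ((3 : ℕ) : ℤ)) := Finite.of_injective f hf
  refine ⟨hfin, ?_⟩
  have := Nat.card_le_card_of_injective f hf
  rw [Nat.card_eq_fintype_card (α := cand W), Fintype.card_coe] at this
  exact this.trans (card_cand_le W h3)

/-- Existence of a nonzero `3`-torsion point over an algebraically closed field. -/
lemma exists_three_torsion [IsAlgClosed K] (h2 : (2 : K) ≠ 0) (h3 : (3 : K) ≠ 0) (hΔ : W.Δ ≠ 0) :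
    ∃ P : W.Point, P ≠ 0 ∧ (3 : ℕ) • P = 0 := by
  obtain ⟨x, hx⟩ := IsAlgClosed.exists_root (WeierstrassCurve.Ψ₃ W) (by
    rw [degree_eq_natDegree (WeierstrassCurve.Ψ₃_ne_zero W h3), WeierstrassCurve.natDegree_Ψ₃ W h3]
    norm_num)
  obtain ⟨y, hy⟩ := IsAlgClosed.exists_root (ypoly W x) (by
    rw [degree_eq_natDegree (ypoly_ne_zero W x), ypoly_natDegree W x]
    norm_num)
  rw [IsRoot, eval_Ψ₃] at hx
  rw [IsRoot, ypoly_eval] at hy
  have hns : W.Nonsingular x y := (equation_iff_nonsingular_of_Δ_ne_zero hΔ).1 hy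
  exact ⟨Point.some x y hns, some_ne_zero hns, three_nsmul_of_psi3_eq_zero W h2 h3 hΔ hns hx⟩

end generic


end Part_e

/-! ### Part f -/

section Part_f


open WeierstrassCurve Polynomial
open WeierstrassCurve.Affine WeierstrassCurve.Affine.Point

section algebra

variable {F : Type*} [Field F] (W : WeierstrassCurve F)

/-- The parametrisation identity on the `3`-isogeny side. -/
lemma three_param {x : F} (hx : psi3 W x = 0) (hD : psi2sq W x ≠ 0) (hΔ : W.Δ ≠ 0) :
    ∃ h : F, h ≠ 0 ∧ W.c₄ ^ 3 * h = W.Δ * (h + 27) * (h + 3) ^ 3 := by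
  have e1 := bfour_cube W x
  have e2 := c4_psi2sq_sq W x
  rw [hx] at e1 e2
  simp only [mul_zero, sub_zero, add_zero] at e1 e2
  refine ⟨W.Δ / psi2sq W x ^ 2, div_ne_zero hΔ (pow_ne_zero _ hD), ?_⟩
  have e3 : W.c₄ ^ 3 * psi2sq W x ^ 6 =
      (W.Δ + 27 * psi2sq W x ^ 2) * (W.Δ + 3 * psi2sq W x ^ 2) ^ 3 := by
    calc W.c₄ ^ 3 * psi2sq W x ^ 6 = (W.c₄ * psi2sq W x ^ 2) ^ 3 := by ring
      _ = (bfour W x * (W.Δ + 3 * psi2sq W x ^ 2)) ^ 3 := by rw [e2]
      _ = bfour W x ^ 3 * (W.Δ + 3 * psi2sq W x ^ 2) ^ 3 := by ring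
      _ = _ := by rw [e1]
  field_simp
  linear_combination e3

end algebra


end Part_f

/-! ### Part g -/

section Part_g


open WeierstrassCurve Polynomial
open WeierstrassCurve.Affine WeierstrassCurve.Affine.Point

section main

variable (W : WeierstrassCurve ℤ)

lemma psi3_baseChange (V : WeierstrassCurve ℚ) (q : ℚ) :
    psi3 (V⁄(AlgebraicClosure ℚ)) (algebraMap ℚ (AlgebraicClosure ℚ) q) =
      algebraMap ℚ (AlgebraicClosure ℚ) (psi3 V q) := by
  simp only [psi3, Affine.baseChange, WeierstrassCurve.baseChange, map_b₂, map_b₄, map_b₆, map_b₈,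
    map_add, map_mul, map_pow, map_ofNat]

/-- The multiples of a `3`-torsion point by elements of `ZMod 3`. -/
lemma zmod_three_smul_cases {M : Type*} [AddCommGroup M] [Module (ZMod 3) M] (c : ZMod 3) (P : M) :
    c • P = 0 ∨ c • P = P ∨ c • P = -P := by
  have h3 : (3 : ℕ) • P = 0 := by
    rw [← Nat.cast_smul_eq_nsmul (ZMod 3)]
    have : ((3 : ℕ) : ZMod 3) = 0 := by decide
    rw [this, zero_smul]
  have hc : c • P = c.val • P := by
    conv_lhs => rw [← ZMod.natCast_zmod_val c]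
    rw [Nat.cast_smul_eq_nsmul]
  have hlt : c.val < 3 := ZMod.val_lt c
  rw [hc]
  interval_cases c.val
  · left; simp
  · right; left; simp
  · right; right
    rw [eq_neg_iff_add_eq_zero]
    rw [← h3, show (3 : ℕ) = 2 + 1 from rfl, add_nsmul, one_nsmul]

local notation "E" => (W.map (Int.castRingHom ℚ))⁄(AlgebraicClosure ℚ)

theorem three_side (hΔ : W.Δ ≠ 0) (hred : ¬ W.ModRepIsIrreducible 3) :
    ∃ h : ℚ, h ≠ 0 ∧ (W.c₄ : ℚ) ^ 3 * h = (W.Δ : ℚ) * (h + 27) * (h + 3) ^ 3 := by
  have hΔV : (W.map (Int.castRingHom ℚ)).Δ ≠ 0 := by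
    rw [map_Δ]
    simpa using hΔ
  have hΔE : (E).Δ ≠ 0 := by
    rw [map_Δ] at hΔV
    simp only [Affine.baseChange, WeierstrassCurve.baseChange, map_Δ]
    exact (_root_.map_ne_zero _).2 hΔV
  have h2 : (2 : AlgebraicClosure ℚ) ≠ 0 := two_ne_zero
  have h3 : (3 : AlgebraicClosure ℚ) ≠ 0 := three_ne_zero
  obtain ⟨P0, hP0, hP03⟩ := exists_three_torsion (E) h2 h3 hΔE
  have hnt : Nontrivial (Submodule.torsionBy ℤ (E).Point ((3 : ℕ) : ℤ)) := by
    refine ⟨⟨⟨P0, (mem_torsionBy_three_iff _ P0).2 hP03⟩, 0, ?_⟩⟩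
    intro h
    exact hP0 (congrArg Subtype.val h)
  unfold WeierstrassCurve.ModRepIsIrreducible GaloisRepIsIrreducible at hred
  rw [not_and] at hred
  obtain ⟨N, hN⟩ := not_forall.1 (hred hnt)
  rw [Classical.not_imp, not_or] at hN
  obtain ⟨hstab, hbot, htop⟩ := hN
  obtain ⟨hfin, hcard⟩ := finite_torsion_three (E) h3
  obtain ⟨P, hPN, hP0'⟩ := (Submodule.ne_bot_iff N).1 hbot
  have key : ∀ Q ∈ N, Q = 0 ∨ Q = P ∨ Q = -P := by
    intro Q hQ
    obtain ⟨c, rfl⟩ := submodule_eq_line_of_card_lt (p := 3) (by omega) N hbot htop hPN hP0' hQ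
    exact zmod_three_smul_cases c P
  obtain ⟨P1, hP1⟩ := P
  rcases P1 with _ | ⟨x, y, h⟩
  · exact absurd rfl hP0'
  have hx : psi3 (E) x = 0 :=
    psi3_eq_zero_of_three_nsmul _ h ((mem_torsionBy_three_iff _ _).1 hP1)
  have hfix : ∀ σ : AlgebraicClosure ℚ ≃ₐ[ℚ] AlgebraicClosure ℚ, σ x = x := by
    intro σ
    have hσ := key _ (hstab σ _ hPN)
    have e : ∃ h', ((σ • (⟨Point.some x y h, hP1⟩ :
        Submodule.torsionBy ℤ (E).Point ((3 : ℕ) : ℤ)) :
        Submodule.torsionBy ℤ (E).Point ((3 : ℕ) : ℤ)) : (E).Point) =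
        Point.some (σ x) (σ y) h' := ⟨_, rfl⟩
    obtain ⟨h', e⟩ := e
    rcases hσ with hσ | hσ | hσ
    · have := congrArg Subtype.val hσ
      rw [e] at this
      exact absurd this (some_ne_zero _)
    · have := congrArg Subtype.val hσ
      rw [e] at this
      injection this
    · have := congrArg Subtype.val hσ
      rw [e] at this
      simp only [Submodule.coe_neg, neg_some] at this
      injection this
  obtain ⟨q, hq⟩ := mem_range_of_forall_algEquiv_fixed x hfix
  rw [← hq, psi3_baseChange] at hx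
  have hxq : psi3 (W.map (Int.castRingHom ℚ)) q = 0 :=
    (map_eq_zero (algebraMap ℚ (AlgebraicClosure ℚ))).1 hx
  have hD : psi2sq (W.map (Int.castRingHom ℚ)) q ≠ 0 := by
    intro h0
    exact hΔV (Δ_eq_zero_of_psi2sq_psi3 _ two_ne_zero three_ne_zero h0 hxq)
  obtain ⟨t, ht0, ht⟩ := three_param _ hxq hD hΔV
  refine ⟨t, ht0, ?_⟩
  have hc4 : (W.map (Int.castRingHom ℚ)).c₄ = (W.c₄ : ℚ) := by rw [map_c₄]; rfl
  have hΔ' : (W.map (Int.castRingHom ℚ)).Δ = (W.Δ : ℚ) := by rw [map_Δ]; rfl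
  rw [← hc4, ← hΔ']
  exact ht

end main


end Part_g

end Fermat.Agent.S51.Three
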